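import Mathlib

section MergeWrap_F4_Loc_HerbMul -- from F4/Loc/HerbMul.lean

/-!
# F4/Loc: Herbrand's lemma in index form, multiplicative version (helper91)

For two endomorphisms `f g` of a commutative group `A` with `f ∘ g = 1 = g ∘ f` and a
subgroup `B`, put `mhq f g B = [B ∩ ker f : g B]`.  For stable `B ≤ C` with `[C : B]` finite,
`mhq f g C * mhq g f B = mhq f g B * mhq g f C`.
Also a criterion for a relative index to be a prime `p`.
-/

set_option autoImplicit false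

namespace Fermat.Agent.F4Loc

variable {A A' : Type*} [CommGroup A] [CommGroup A']

/-- For `B ≤ C` and any subgroup `K`: `[C : B] = [C K : B K] * [C ∩ K : B ∩ K]`. -/
theorem mrelIndex_eq_sup_mul_inf (B C K : Subgroup A) (h : B ≤ C) :
    B.relIndex C = (B ⊔ K).relIndex (C ⊔ K) * (B ⊓ K).relIndex (C ⊓ K) := by
  have h1 : B ≤ B ⊔ (C ⊓ K) := le_sup_left
  have h2 : B ⊔ (C ⊓ K) ≤ C := sup_le h inf_le_left
  rw [← Subgroup.relIndex_mul_relIndex B (B ⊔ (C ⊓ K)) C h1 h2]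
  have e1 : B.relIndex (B ⊔ (C ⊓ K)) = (B ⊓ K).relIndex (C ⊓ K) := by
    rw [Subgroup.relIndex_sup_left, ← Subgroup.inf_relIndex_right B (C ⊓ K)]
    congr 1
    rw [← inf_assoc, inf_eq_left.mpr h]
  have e2 : (B ⊔ (C ⊓ K)).relIndex C = (B ⊔ K).relIndex (C ⊔ K) := by
    have hm : B ⊔ (C ⊓ K) = (B ⊔ K) ⊓ C := by
      rw [sup_inf_assoc_of_le K h, inf_comm K C]
    rw [hm, Subgroup.inf_relIndex_right]
    have hs : C ⊔ K = C ⊔ (B ⊔ K) := by
      rw [← sup_assoc, sup_eq_left.mpr h]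
    rw [hs, Subgroup.relIndex_sup_right]
  rw [e1, e2, mul_comm]

/-- Lang's index lemma: `[C : B] = [f C : f B] * [C ∩ ker f : B ∩ ker f]`. -/
theorem mrelIndex_eq_map_mul_ker (f : A →* A') (B C : Subgroup A) (h : B ≤ C) :
    B.relIndex C = (B.map f).relIndex (C.map f) * (B ⊓ f.ker).relIndex (C ⊓ f.ker) := by
  rw [Subgroup.relIndex_map_map]
  exact mrelIndex_eq_sup_mul_inf B C f.ker h

/-- `mhq f g B = [B ∩ ker f : g B]` (`0` if infinite). -/
noncomputable def mhq (f g : A →* A) (B : Subgroup A) : ℕ :=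
  (B.map g).relIndex (B ⊓ f.ker)

theorem mhq_def (f g : A →* A) (B : Subgroup A) :
    mhq f g B = (B.map g).relIndex (B ⊓ f.ker) := rfl

theorem mhq_top (f g : A →* A) : mhq f g ⊤ = g.range.relIndex f.ker := by
  rw [mhq, top_inf_eq, ← MonoidHom.range_eq_map]

theorem mmap_le_inf_ker (f g : A →* A) (hfg : ∀ x, f (g x) = 1) {B : Subgroup A}
    (hgB : B.map g ≤ B) : B.map g ≤ B ⊓ f.ker := by
  refine le_inf hgB ?_
  rintro _ ⟨x, -, rfl⟩
  exact hfg x

theorem mrelIndex_map_mul_mhq (f g : A →* A) (hfg : ∀ x, f (g x) = 1) {B C : Subgroup A}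
    (hBC : B ≤ C) (hgB : B.map g ≤ B) (hgC : C.map g ≤ C) :
    (B.map g).relIndex (C.map g) * mhq f g C =
      mhq f g B * (B ⊓ f.ker).relIndex (C ⊓ f.ker) := by
  have h1 : B.map g ≤ C.map g := Subgroup.map_mono hBC
  have h2 : C.map g ≤ C ⊓ f.ker := mmap_le_inf_ker f g hfg hgC
  have h3 : B.map g ≤ B ⊓ f.ker := mmap_le_inf_ker f g hfg hgB
  have h4 : B ⊓ f.ker ≤ C ⊓ f.ker := inf_le_inf_right _ hBC
  rw [mhq, mhq, Subgroup.relIndex_mul_relIndex _ _ _ h1 h2,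
    Subgroup.relIndex_mul_relIndex _ _ _ h3 h4]

/-- **Herbrand's lemma** (index form, multiplicative). -/
theorem mhq_mul_mhq_of_relIndex_ne_zero (f g : A →* A) (hfg : ∀ x, f (g x) = 1)
    (hgf : ∀ x, g (f x) = 1) {B C : Subgroup A} (hBC : B ≤ C)
    (hfB : B.map f ≤ B) (hgB : B.map g ≤ B) (hfC : C.map f ≤ C) (hgC : C.map g ≤ C)
    (hfin : B.relIndex C ≠ 0) :
    mhq f g C * mhq g f B = mhq f g B * mhq g f C := by
  have e1 := mrelIndex_map_mul_mhq f g hfg hBC hgB hgC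
  have e2 := mrelIndex_map_mul_mhq g f hgf hBC hfB hfC
  have i1 := mrelIndex_eq_map_mul_ker f B C hBC
  have i2 := mrelIndex_eq_map_mul_ker g B C hBC
  have key : B.relIndex C * (mhq f g C * mhq g f B) =
      B.relIndex C * (mhq f g B * mhq g f C) := by
    calc B.relIndex C * (mhq f g C * mhq g f B)
        = ((B.map g).relIndex (C.map g) * mhq f g C) *
            (mhq g f B * (B ⊓ g.ker).relIndex (C ⊓ g.ker)) := by rw [i2]; ring
      _ = (mhq f g B * (B ⊓ f.ker).relIndex (C ⊓ f.ker)) *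
            ((B.map f).relIndex (C.map f) * mhq g f C) := by rw [e1, e2]
      _ = B.relIndex C * (mhq f g B * mhq g f C) := by rw [i1]; ring
  exact Nat.eq_of_mul_eq_mul_left (Nat.pos_of_ne_zero hfin) key

/-- Under the hypotheses of Herbrand's lemma, `mhq f g C` is finite iff `mhq f g B` is. -/
theorem mhq_ne_zero_iff_of_relIndex_ne_zero (f g : A →* A) (hfg : ∀ x, f (g x) = 1)
    {B C : Subgroup A} (hBC : B ≤ C) (hgB : B.map g ≤ B) (hgC : C.map g ≤ C)
    (hfin : B.relIndex C ≠ 0) :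
    mhq f g C ≠ 0 ↔ mhq f g B ≠ 0 := by
  have e1 := mrelIndex_map_mul_mhq f g hfg hBC hgB hgC
  have i1 := mrelIndex_eq_map_mul_ker f B C hBC
  have i2 := mrelIndex_eq_map_mul_ker g B C hBC
  have n1 : (B ⊓ f.ker).relIndex (C ⊓ f.ker) ≠ 0 := by
    intro h; rw [h, mul_zero] at i1; exact hfin i1
  have n2 : (B.map g).relIndex (C.map g) ≠ 0 := by
    intro h; rw [h, zero_mul] at i2; exact hfin i2
  constructor
  · intro h hB
    rw [hB, zero_mul] at e1
    exact (mul_ne_zero n2 h) e1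
  · intro h hC
    rw [hC, mul_zero] at e1
    exact (mul_ne_zero h n1) e1.symm

/-- Herbrand's lemma for `C = ⊤`. -/
theorem mhq_top_mul_mhq (f g : A →* A) (hfg : ∀ x, f (g x) = 1)
    (hgf : ∀ x, g (f x) = 1) {B : Subgroup A}
    (hfB : B.map f ≤ B) (hgB : B.map g ≤ B) (hfin : B.index ≠ 0) :
    mhq f g ⊤ * mhq g f B = mhq f g B * mhq g f ⊤ := by
  refine mhq_mul_mhq_of_relIndex_ne_zero f g hfg hgf le_top hfB hgB le_top le_top ?_
  rwa [Subgroup.relIndex_top_right]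

/-- Criterion for `[X : Y] = p`: `X` is generated by `Y` and one element `x ∉ Y` with
`x ^ p ∈ Y`. -/
theorem relIndex_eq_prime {G : Type*} [CommGroup G] {p : ℕ} (hp : p.Prime) {X Y : Subgroup G}
    (x : G) (hxX : x ∈ X) (hxY : x ∉ Y) (hxp : x ^ p ∈ Y)
    (hgen : X ≤ Y ⊔ Subgroup.zpowers x) : Y.relIndex X = p := by
  have : Fact p.Prime := ⟨hp⟩
  set Q := X ⧸ Y.subgroupOf X
  set q : Q := QuotientGroup.mk (⟨x, hxX⟩ : X) with hq
  have hqp : q ^ p = 1 := by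
    rw [hq, ← QuotientGroup.mk_pow, QuotientGroup.eq_one_iff]
    exact hxp
  have hq1 : q ≠ 1 := by
    rw [hq, Ne, QuotientGroup.eq_one_iff]
    exact hxY
  have hord : orderOf q = p := orderOf_eq_prime hqp hq1
  have hall : ∀ y : Q, y ∈ Subgroup.zpowers q := by
    intro y
    induction y using QuotientGroup.induction_on with
    | H z =>
      obtain ⟨z, hz⟩ := z
      have := hgen hz
      rw [Subgroup.mem_sup] at this
      obtain ⟨y', hy', w, hw, rfl⟩ := this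
      rw [Subgroup.mem_zpowers_iff] at hw
      obtain ⟨k, rfl⟩ := hw
      rw [Subgroup.mem_zpowers_iff]
      refine ⟨k, ?_⟩
      rw [hq, ← QuotientGroup.mk_zpow, QuotientGroup.eq]
      show ((⟨x, hxX⟩ : X) ^ k)⁻¹ * ⟨y' * x ^ k, hz⟩ ∈ Y.subgroupOf X
      rw [Subgroup.mem_subgroupOf]
      simp only [Subgroup.coe_mul, Subgroup.coe_inv, Subgroup.coe_zpow]
      rw [mul_comm y', inv_mul_cancel_left]
      exact hy'
  have hcard : Nat.card Q = p := by
    rw [← hord]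
    exact (orderOf_eq_card_of_forall_mem_zpowers hall).symm
  rw [Subgroup.relIndex, Subgroup.index, hcard]

end Fermat.Agent.F4Loc
end MergeWrap_F4_Loc_HerbMul

section MergeWrap_F4_Loc_NormIdx_Setup -- from F4/Loc/NormIdx/Setup.lean

/-!
# F4/Loc/NormIdx: abstract setup for the local norm index theorem (helper91)

`L/K` a finite Galois extension, `O` a Galois-stable valuation ring of `L`, `π ∈ K` a non-unit
of `O` ("pseudo-uniformizer"), with:

* `rk1`  : every element of `K` is moved into `O` by a power of `π` (rank one);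
* `disc` : `K^× / (U_K · π^ℤ)` is finite (discreteness), given by finitely many representatives;
* `fin`  : `O_K / π O_K` is finite, given by finitely many representatives;
* `hens` : Hensel's lemma for polynomials `c₀ + X + c₂ X² + …` with `c_i ∈ π O_K` for `i ≥ 2`
  (sum form).

`NIBase` = everything except `hens`; `NISetup` = `NIBase` + `hens`.

This file: the ideals `I n = π^n O_K`, elementary valuation lemmas.
-/

set_option autoImplicit false

namespace Fermat.Agent.F4Loc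

/-- Data for the abstract local norm index theorem, without Hensel's lemma. -/
structure NIBase (K L : Type*) [Field K] [Field L] [Algebra K L] where
  /-- the valuation ring of `L` -/
  O : ValuationSubring L
  /-- a pseudo-uniformizer in `K` -/
  π : K
  hπO : algebraMap K L π ∈ O
  hπnu : (algebraMap K L π)⁻¹ ∉ O
  hO : ∀ (g : L ≃ₐ[K] L) (x : L), x ∈ O → g x ∈ O
  rk1 : ∀ a : K, ∃ n : ℕ, algebraMap K L (π ^ n * a) ∈ O
  disc : ∃ R : Finset K, ∀ a : K, a ≠ 0 → ∃ r ∈ R, ∃ (k : ℤ) (u : K),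
    a = r * π ^ k * u ∧ algebraMap K L u ∈ O ∧ (algebraMap K L u)⁻¹ ∈ O
  fin : ∃ T : Finset K, ∀ a : K, algebraMap K L a ∈ O →
    ∃ s ∈ T, algebraMap K L ((a - s) / π) ∈ O

/-- Data for the abstract local norm index theorem (with Hensel's lemma, sum form). -/
structure NISetup (K L : Type*) [Field K] [Field L] [Algebra K L] extends NIBase K L where
  hens : ∀ (d : ℕ) (c : ℕ → K), (∀ i, algebraMap K L (c i) ∈ O) → c 1 = 1 →
    (∀ i, 2 ≤ i → algebraMap K L (c i / π) ∈ O) →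
    ∃ x : K, algebraMap K L x ∈ O ∧ ∑ i ∈ Finset.range (d + 2), c i * x ^ i = 0

namespace NIBase

variable {K L : Type*} [Field K] [Field L] [Algebra K L] (S : NIBase K L)

/-- The valuation ring `O ∩ K` of `K`. -/
def OK : ValuationSubring K := S.O.comap (algebraMap K L)

theorem mem_OK {a : K} : a ∈ S.OK ↔ algebraMap K L a ∈ S.O := Iff.rfl

theorem π_mem : S.π ∈ S.OK := S.hπO

theorem π_inv_notMem : S.π⁻¹ ∉ S.OK := by
  rw [mem_OK, map_inv₀]
  exact S.hπnu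

theorem π_ne_zero : S.π ≠ 0 := by
  intro h
  apply S.π_inv_notMem
  rw [h, inv_zero]
  exact zero_mem _

theorem πL_ne_zero : algebraMap K L S.π ≠ 0 := by
  rw [Ne, map_eq_zero]
  exact S.π_ne_zero

theorem π_pow_mem (n : ℕ) : S.π ^ n ∈ S.OK := pow_mem S.π_mem n

/-- A nonzero integer power of `π` is not a unit. -/
theorem zpow_eq_zero_of_unit {k : ℤ} (h1 : S.π ^ k ∈ S.OK) (h2 : (S.π ^ k)⁻¹ ∈ S.OK) : k = 0 := by
  by_contra hk
  have key : ∀ n : ℕ, n ≠ 0 → (S.π ^ n)⁻¹ ∈ S.OK → False := by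
    intro n hn h
    apply S.π_inv_notMem
    obtain ⟨j, rfl⟩ := Nat.exists_eq_succ_of_ne_zero hn
    have : S.π⁻¹ = (S.π ^ (j + 1))⁻¹ * S.π ^ j := by
      rw [pow_succ, mul_inv, mul_comm (S.π ^ j)⁻¹, mul_assoc,
        inv_mul_cancel₀ (pow_ne_zero _ S.π_ne_zero), mul_one]
    rw [this]
    exact mul_mem h (S.π_pow_mem j)
  rcases lt_or_gt_of_ne hk with h | h
  · obtain ⟨n, hn⟩ := Int.exists_eq_neg_ofNat h.le
    have hn0 : n ≠ 0 := by rintro rfl; simp at hn; exact hk hn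
    refine key n hn0 ?_
    rw [hn, zpow_neg, zpow_natCast] at h1
    exact h1
  · obtain ⟨n, hn⟩ := Int.eq_ofNat_of_zero_le h.le
    have hn0 : n ≠ 0 := by rintro rfl; simp at hn; exact hk hn
    refine key n hn0 ?_
    rw [hn, zpow_natCast] at h2
    exact h2

/-- `I n = π ^ n O_K`. -/
def I (n : ℕ) : AddSubgroup K where
  carrier := {a | a / S.π ^ n ∈ S.OK}
  add_mem' := by
    intro a b ha hb
    simp only [Set.mem_ofPred_eq] at *
    rw [add_div]
    exact add_mem ha hb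
  zero_mem' := by
    simp only [Set.mem_ofPred_eq, zero_div]
    exact zero_mem _
  neg_mem' := by
    intro a ha
    simp only [Set.mem_ofPred_eq] at *
    rw [neg_div]
    exact neg_mem ha

theorem mem_I {n : ℕ} {a : K} : a ∈ S.I n ↔ a / S.π ^ n ∈ S.OK := Iff.rfl

theorem mem_I_zero {a : K} : a ∈ S.I 0 ↔ a ∈ S.OK := by
  rw [mem_I, pow_zero, div_one]

theorem mem_I_iff_exists {n : ℕ} {a : K} : a ∈ S.I n ↔ ∃ a' ∈ S.OK, a = S.π ^ n * a' := by
  constructor
  · intro h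
    refine ⟨a / S.π ^ n, h, ?_⟩
    rw [mul_div_cancel₀ _ (pow_ne_zero _ S.π_ne_zero)]
  · rintro ⟨a', ha', rfl⟩
    rw [mem_I, mul_div_cancel_left₀ _ (pow_ne_zero _ S.π_ne_zero)]
    exact ha'

theorem pow_mul_mem_I {n : ℕ} {a : K} (ha : a ∈ S.OK) : S.π ^ n * a ∈ S.I n :=
  S.mem_I_iff_exists.mpr ⟨a, ha, rfl⟩

theorem mul_mem_I {n m : ℕ} {a b : K} (ha : a ∈ S.I n) (hb : b ∈ S.I m) :
    a * b ∈ S.I (n + m) := by
  rw [mem_I] at *
  have : a * b / S.π ^ (n + m) = (a / S.π ^ n) * (b / S.π ^ m) := by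
    rw [pow_add, mul_div_mul_comm]
  rw [this]
  exact mul_mem ha hb

theorem I_anti {n m : ℕ} (h : n ≤ m) : S.I m ≤ S.I n := by
  intro a ha
  obtain ⟨j, rfl⟩ := Nat.exists_eq_add_of_le h
  rw [mem_I] at *
  have : a / S.π ^ n = a / S.π ^ (n + j) * S.π ^ j := by
    rw [pow_add]
    field_simp [S.π_ne_zero]
  rw [this]
  exact mul_mem ha (S.π_pow_mem j)

theorem I_le_OK {n : ℕ} {a : K} (ha : a ∈ S.I n) : a ∈ S.OK :=
  S.mem_I_zero.mp (S.I_anti (Nat.zero_le n) ha)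

theorem mul_mem_I_left {n : ℕ} {a b : K} (ha : a ∈ S.OK) (hb : b ∈ S.I n) :
    a * b ∈ S.I n := by
  have := S.mul_mem_I (S.mem_I_zero.mpr ha) hb
  rwa [zero_add] at this

theorem mul_mem_I_right {n : ℕ} {a b : K} (ha : a ∈ S.I n) (hb : b ∈ S.OK) :
    a * b ∈ S.I n := by
  rw [mul_comm]
  exact S.mul_mem_I_left hb ha

theorem mem_I_succ_of_pow_mul {n : ℕ} {a : K} : S.π * a ∈ S.I (n + 1) ↔ a ∈ S.I n := by
  rw [mem_I, mem_I, pow_succ, mul_comm (S.π ^ n), mul_div_mul_left _ _ S.π_ne_zero]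

theorem pow_mul_mem_I_add {n k : ℕ} {a : K} : S.π ^ k * a ∈ S.I (n + k) ↔ a ∈ S.I n := by
  rw [mem_I, mem_I, pow_add, mul_comm (S.π ^ n), mul_div_mul_left _ _ (pow_ne_zero _ S.π_ne_zero)]

/-- Rank one: every element of `K` is moved into `O_K` by a power of `π`. -/
theorem exists_pow_mul_mem (a : K) : ∃ n : ℕ, S.π ^ n * a ∈ S.OK := S.rk1 a

theorem exists_pow_mul_mem_of_le (a : K) : ∃ n : ℕ, ∀ m, n ≤ m → S.π ^ m * a ∈ S.OK := by
  obtain ⟨n, hn⟩ := S.exists_pow_mul_mem a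
  refine ⟨n, fun m hm => ?_⟩
  obtain ⟨j, rfl⟩ := Nat.exists_eq_add_of_le hm
  rw [pow_add, mul_comm (S.π ^ n), mul_assoc]
  exact mul_mem (S.π_pow_mem j) hn

/-- `⋂ I n = 0`. -/
theorem eq_zero_of_forall_mem_I {a : K} (h : ∀ n, a ∈ S.I n) : a = 0 := by
  by_contra ha
  obtain ⟨n, hn⟩ := S.exists_pow_mul_mem a⁻¹
  apply S.π_inv_notMem
  have h1 := h (n + 1)
  rw [mem_I] at h1
  have : S.π⁻¹ = (a / S.π ^ (n + 1)) * (S.π ^ n * a⁻¹) := by
    rw [pow_succ]
    field_simp [S.π_ne_zero]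
  rw [this]
  exact mul_mem h1 hn

theorem valuation_π_lt_one : S.OK.valuation S.π < 1 := by
  refine lt_of_le_of_ne ((S.OK.valuation_le_one_iff _).mpr S.π_mem) ?_
  intro h
  apply S.π_inv_notMem
  rw [← S.OK.valuation_le_one_iff, map_inv₀, h, inv_one]

theorem valuation_lt_one_of_mem_I {a : K} (ha : a ∈ S.I 1) : S.OK.valuation a < 1 := by
  obtain ⟨a', ha', rfl⟩ := S.mem_I_iff_exists.mp ha
  rw [pow_one, map_mul]
  exact lt_of_le_of_lt (mul_le_of_le_one_right' ((S.OK.valuation_le_one_iff _).mpr ha'))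
    S.valuation_π_lt_one

/-- `1 + π O_K` consists of units. -/
theorem inv_one_add_mem {a : K} (ha : a ∈ S.I 1) : (1 + a)⁻¹ ∈ S.OK := by
  rw [← S.OK.valuation_le_one_iff, map_inv₀,
    Valuation.map_one_add_of_lt _ (S.valuation_lt_one_of_mem_I ha), inv_one]

theorem one_add_ne_zero {a : K} (ha : a ∈ S.I 1) : 1 + a ≠ 0 := by
  intro h
  have := Valuation.map_one_add_of_lt _ (S.valuation_lt_one_of_mem_I ha)
  rw [h, map_zero] at this
  exact zero_ne_one this

/-- The inverse of an element of `1 + π^n O_K` (`n ≥ 1`) is again in `1 + π^n O_K`. -/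
theorem inv_one_add_sub_one_mem {n : ℕ} (hn : 1 ≤ n) {a : K} (ha : a ∈ S.I n) :
    (1 + a)⁻¹ - 1 ∈ S.I n := by
  have ha1 : a ∈ S.I 1 := S.I_anti hn ha
  have h0 := S.one_add_ne_zero ha1
  have : (1 + a)⁻¹ - 1 = -((1 + a)⁻¹ * a) := by
    field_simp
    ring
  rw [this]
  exact neg_mem (S.mul_mem_I_left (S.inv_one_add_mem ha1) ha)

end NIBase

end Fermat.Agent.F4Loc
end MergeWrap_F4_Loc_NormIdx_Setup

section MergeWrap_F4_Loc_NormIdx_Lattice -- from F4/Loc/NormIdx/Lattice.lean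

/-!
# F4/Loc/NormIdx: the normal basis lattice (helper91)

`Λ : NILattice S`: a normal basis `b g = g θ` of `L/K` with `θ ∈ O` whose structure constants
are integral, so that `M = ⊕ O_K (g θ)` is a Galois-stable multiplicatively closed lattice in `O`.
`Λ.Mn n = π ^ n M` (coordinatewise).
-/

set_option autoImplicit false
set_option linter.unusedSectionVars false

open Finset
open scoped Classical

namespace Fermat.Agent.F4Loc

variable {K L : Type*} [Field K] [Field L] [Algebra K L] [FiniteDimensional K L] [IsGalois K L]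

namespace NIBase

variable (S : NIBase K L)

theorem gal_mem_iff (g : L ≃ₐ[K] L) {x : L} : g x ∈ S.O ↔ x ∈ S.O := by
  refine ⟨fun h => ?_, S.hO g x⟩
  have := S.hO g⁻¹ _ h
  rwa [AlgEquiv.aut_inv, AlgEquiv.symm_apply_apply] at this

theorem norm_mem_OK {x : L} (hx : x ∈ S.O) : Algebra.norm K x ∈ S.OK := by
  rw [mem_OK, Algebra.norm_eq_prod_automorphisms]
  exact prod_mem fun g _ => S.hO g x hx

theorem trace_mem_OK {x : L} (hx : x ∈ S.O) : Algebra.trace K L x ∈ S.OK := by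
  rw [mem_OK, trace_eq_sum_automorphisms]
  exact sum_mem fun g _ => S.hO g x hx

/-- `x = N(x) * ∏_{g ≠ 1} g x⁻¹`. -/
theorem eq_norm_mul_prod (x : L) (hx : x ≠ 0) :
    x = algebraMap K L (Algebra.norm K x) *
      ∏ g ∈ (univ : Finset (L ≃ₐ[K] L)).erase 1, g x⁻¹ := by
  have h1 : algebraMap K L (Algebra.norm K x⁻¹) =
      x⁻¹ * ∏ g ∈ (univ : Finset (L ≃ₐ[K] L)).erase 1, g x⁻¹ := by
    rw [Algebra.norm_eq_prod_automorphisms, ← Finset.mul_prod_erase univ _ (mem_univ 1)]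
    rfl
  have h2 : algebraMap K L (Algebra.norm K x) * algebraMap K L (Algebra.norm K x⁻¹) = 1 := by
    rw [← map_mul, ← map_mul, mul_inv_cancel₀ hx, map_one, map_one]
  have h3 : ∏ g ∈ (univ : Finset (L ≃ₐ[K] L)).erase 1, g x⁻¹ =
      x * algebraMap K L (Algebra.norm K x⁻¹) := by
    rw [h1, ← mul_assoc, mul_inv_cancel₀ hx, one_mul]
  rw [h3, mul_comm x, ← mul_assoc, h2, one_mul]

/-- An element of `L` is integral iff its norm is. -/
theorem mem_O_iff_norm_mem {x : L} : x ∈ S.O ↔ Algebra.norm K x ∈ S.OK := by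
  refine ⟨S.norm_mem_OK, fun h => ?_⟩
  by_cases hx : x = 0
  · rw [hx]; exact zero_mem _
  rcases S.O.mem_or_inv_mem x with h' | h'
  · exact h'
  · rw [eq_norm_mul_prod (K := K) x hx]
    exact mul_mem h (prod_mem fun g _ => S.hO g _ h')

/-- Rank one for `L`. -/
theorem exists_pow_mul_mem_O (y : L) : ∃ n : ℕ, algebraMap K L (S.π ^ n) * y ∈ S.O := by
  rcases S.O.mem_or_inv_mem y with h | h
  · exact ⟨0, by simpa using h⟩
  · by_cases hy : y = 0
    · exact ⟨0, by simp [hy, zero_mem]⟩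
    set a := Algebra.norm K y⁻¹ with ha
    have ha0 : a ≠ 0 := by
      rw [ha, Ne, Algebra.norm_eq_zero_iff]
      exact inv_ne_zero hy
    obtain ⟨n, hn⟩ := S.exists_pow_mul_mem a⁻¹
    refine ⟨n, ?_⟩
    have e : y = algebraMap K L a⁻¹ * ∏ g ∈ (univ : Finset (L ≃ₐ[K] L)).erase 1, g y⁻¹ := by
      have := eq_norm_mul_prod (K := K) y hy
      rw [ha, Algebra.norm_inv, inv_inv]
      exact this
    rw [e, ← mul_assoc, ← map_mul]
    exact mul_mem hn (prod_mem fun g _ => S.hO g _ h)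

/-- Uniform exponents for a finite family. -/
theorem exists_pow_mul_mem_family {ι : Type*} [Finite ι] (a : ι → K) :
    ∃ n : ℕ, ∀ m, n ≤ m → ∀ i, S.π ^ m * a i ∈ S.OK := by
  classical
  cases nonempty_fintype ι
  choose N hN using fun i => S.exists_pow_mul_mem_of_le (a i)
  refine ⟨univ.sup N, fun m hm i => hN i m ?_⟩
  exact le_trans (Finset.le_sup (mem_univ i)) hm

end NIBase

/-- A normal basis lattice adapted to the setup. -/
structure NILattice (S : NIBase K L) where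
  /-- normal basis generator -/
  θ : L
  /-- the normal basis -/
  b : Module.Basis (L ≃ₐ[K] L) K L
  hb : ∀ g, b g = g θ
  hθ : θ ∈ S.O
  hmul : ∀ g h k, b.repr (b g * b h) k ∈ S.OK

namespace NILattice

variable {S : NIBase K L} (Λ : NILattice S)

/-- `Mn n = π ^ n M`, `M = ⊕ O_K (g θ)`. -/
def Mn (n : ℕ) : AddSubgroup L where
  carrier := {x | ∀ g, Λ.b.repr x g ∈ S.I n}
  add_mem' := by
    intro x y hx hy g
    rw [map_add, Finsupp.add_apply]
    exact add_mem (hx g) (hy g)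
  zero_mem' := by
    intro g
    rw [map_zero, Finsupp.zero_apply]
    exact zero_mem _
  neg_mem' := by
    intro x hx g
    rw [map_neg, Finsupp.neg_apply]
    exact neg_mem (hx g)

theorem mem_Mn {n : ℕ} {x : L} : x ∈ Λ.Mn n ↔ ∀ g, Λ.b.repr x g ∈ S.I n := Iff.rfl

theorem Mn_anti {n m : ℕ} (h : n ≤ m) : Λ.Mn m ≤ Λ.Mn n :=
  fun _ hx g => S.I_anti h (hx g)

theorem b_mem (g : L ≃ₐ[K] L) : Λ.b g ∈ Λ.Mn 0 := by
  classical
  intro h
  rw [Module.Basis.repr_self, Finsupp.single_apply, S.mem_I_zero]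
  split_ifs
  · exact one_mem _
  · exact zero_mem _

theorem smul_mem_Mn {k n : ℕ} {a : K} {x : L} (ha : a ∈ S.I k) (hx : x ∈ Λ.Mn n) :
    a • x ∈ Λ.Mn (k + n) := by
  intro g
  rw [map_smul, Finsupp.smul_apply, smul_eq_mul]
  exact S.mul_mem_I ha (hx g)

theorem smul_mem_Mn' {n : ℕ} {a : K} {x : L} (ha : a ∈ S.OK) (hx : x ∈ Λ.Mn n) :
    a • x ∈ Λ.Mn n := by
  have := Λ.smul_mem_Mn (S.mem_I_zero.mpr ha) hx
  rwa [zero_add] at this

theorem pow_smul_mem_Mn_iff {k n : ℕ} {x : L} : S.π ^ k • x ∈ Λ.Mn (n + k) ↔ x ∈ Λ.Mn n := by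
  simp only [mem_Mn, map_smul, Finsupp.smul_apply, smul_eq_mul, S.pow_mul_mem_I_add]

/-- Galois action on coordinates. -/
theorem repr_gal (σ : L ≃ₐ[K] L) (x : L) (g : L ≃ₐ[K] L) :
    Λ.b.repr (σ x) g = Λ.b.repr x (σ⁻¹ * g) := by
  classical
  have hx : σ x = ∑ h, Λ.b.repr x h • Λ.b (σ * h) := by
    conv_lhs => rw [← Λ.b.sum_repr x]
    rw [map_sum]
    refine Finset.sum_congr rfl fun h _ => ?_
    rw [map_smul, Λ.hb, Λ.hb, AlgEquiv.mul_apply]
  rw [hx, map_sum, Finsupp.coe_finsetSum, Finset.sum_apply]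
  simp only [map_smul, Module.Basis.repr_self, Finsupp.smul_apply, Finsupp.single_apply,
    smul_eq_mul, mul_ite, mul_one, mul_zero]
  rw [Finset.sum_eq_single (σ⁻¹ * g)]
  · simp
  · intro h _ hne
    rw [if_neg]
    intro h'
    apply hne
    rw [← h']
    simp
  · simp

theorem gal_mem_Mn {n : ℕ} (σ : L ≃ₐ[K] L) {x : L} (hx : x ∈ Λ.Mn n) : σ x ∈ Λ.Mn n := by
  intro g
  rw [Λ.repr_gal]
  exact hx _

/-- `M` is multiplicatively closed. -/
theorem mul_mem_Mn {n m : ℕ} {x y : L} (hx : x ∈ Λ.Mn n) (hy : y ∈ Λ.Mn m) :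
    x * y ∈ Λ.Mn (n + m) := by
  have e : x * y = ∑ g, ∑ h, (Λ.b.repr x g * Λ.b.repr y h) • (Λ.b g * Λ.b h) := by
    conv_lhs => rw [← Λ.b.sum_repr x, ← Λ.b.sum_repr y, Finset.sum_mul_sum]
    refine Finset.sum_congr rfl fun g _ => Finset.sum_congr rfl fun h _ => ?_
    rw [smul_mul_smul_comm]
  intro k
  rw [e, map_sum, Finsupp.coe_finsetSum, Finset.sum_apply]
  refine sum_mem fun g _ => ?_
  rw [map_sum, Finsupp.coe_finsetSum, Finset.sum_apply]
  refine sum_mem fun h _ => ?_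
  rw [map_smul, Finsupp.smul_apply, smul_eq_mul]
  exact S.mul_mem_I_right (S.mul_mem_I (hx g) (hy h)) (Λ.hmul g h k)

theorem b_mem_O (g : L ≃ₐ[K] L) : Λ.b g ∈ S.O := by
  rw [Λ.hb]
  exact S.hO g _ Λ.hθ

/-- `π ^ n M ⊆ π ^ n O`. -/
theorem Mn_le_O {n : ℕ} {x : L} (hx : x ∈ Λ.Mn n) :
    ∃ y ∈ S.O, x = algebraMap K L (S.π ^ n) * y := by
  refine ⟨∑ g, algebraMap K L (Λ.b.repr x g / S.π ^ n) * Λ.b g, ?_, ?_⟩
  · exact sum_mem fun g _ => mul_mem (hx g) (Λ.b_mem_O g)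
  · conv_lhs => rw [← Λ.b.sum_repr x]
    rw [Finset.mul_sum]
    refine Finset.sum_congr rfl fun g _ => ?_
    rw [← mul_assoc, ← map_mul, mul_div_cancel₀ _ (pow_ne_zero _ S.π_ne_zero), Algebra.smul_def]

theorem Mn_zero_le_O {x : L} (hx : x ∈ Λ.Mn 0) : x ∈ S.O := by
  obtain ⟨y, hy, rfl⟩ := Λ.Mn_le_O hx
  simpa using hy

/-- The trace of `θ`. -/
noncomputable def t₀ : K := Algebra.trace K L Λ.θ

theorem algebraMap_t₀ : algebraMap K L Λ.t₀ = ∑ g, Λ.b g := by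
  rw [t₀, trace_eq_sum_automorphisms]
  exact Finset.sum_congr rfl fun g _ => (Λ.hb g).symm

theorem repr_algebraMap_t₀ (g : L ≃ₐ[K] L) : Λ.b.repr (algebraMap K L Λ.t₀) g = 1 := by
  classical
  rw [algebraMap_t₀, map_sum, Finsupp.coe_finsetSum, Finset.sum_apply]
  simp only [Module.Basis.repr_self, Finsupp.single_apply]
  rw [Finset.sum_eq_single g]
  · simp
  · intro h _ hne
    rw [if_neg hne]
  · simp

theorem t₀_ne_zero : Λ.t₀ ≠ 0 := by
  intro h
  have := Λ.repr_algebraMap_t₀ 1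
  rw [h, map_zero, map_zero, Finsupp.zero_apply] at this
  exact zero_ne_one this

theorem t₀_mem : Λ.t₀ ∈ S.OK := S.trace_mem_OK Λ.hθ

theorem repr_algebraMap (a : K) (g : L ≃ₐ[K] L) :
    Λ.b.repr (algebraMap K L a) g = a / Λ.t₀ := by
  have e : algebraMap K L a = (a / Λ.t₀) • algebraMap K L Λ.t₀ := by
    rw [Algebra.smul_def, ← map_mul, div_mul_cancel₀ _ Λ.t₀_ne_zero]
  rw [e, map_smul, Finsupp.smul_apply, Λ.repr_algebraMap_t₀, smul_eq_mul, mul_one]

theorem algebraMap_mem_Mn {n : ℕ} {a : K} : algebraMap K L a ∈ Λ.Mn n ↔ a / Λ.t₀ ∈ S.I n := by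
  rw [mem_Mn]
  constructor
  · intro h
    have := h 1
    rwa [Λ.repr_algebraMap] at this
  · intro h g
    rwa [Λ.repr_algebraMap]

/-- `⋂ π ^ n M = 0`. -/
theorem eq_zero_of_forall_mem_Mn {x : L} (h : ∀ n, x ∈ Λ.Mn n) : x = 0 := by
  rw [← map_eq_zero_iff Λ.b.repr Λ.b.repr.injective]
  ext g
  exact S.eq_zero_of_forall_mem_I fun n => h n g

/-- every element of `L` is moved into `M` by a power of `π`. -/
theorem exists_pow_smul_mem (x : L) : ∃ k : ℕ, S.π ^ k • x ∈ Λ.Mn 0 := by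
  obtain ⟨n, hn⟩ := S.exists_pow_mul_mem_family (fun g => Λ.b.repr x g)
  refine ⟨n, fun g => ?_⟩
  rw [map_smul, Finsupp.smul_apply, smul_eq_mul, S.mem_I_zero]
  exact hn n le_rfl g

/-- `O ⊆ π ^ (-c) M` for some `c`. -/
theorem exists_pow_smul_mem_of_mem_O : ∃ c : ℕ, ∀ x ∈ S.O, S.π ^ c • x ∈ Λ.Mn 0 := by
  classical
  set B := Algebra.traceForm K L
  have hB : B.Nondegenerate := traceForm_nondegenerate K L
  set d := B.dualBasis hB Λ.b with hd
  have hbd : B.dualBasis hB d = Λ.b :=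
    LinearMap.BilinForm.dualBasis_dualBasis hB (Algebra.traceForm_isSymm K) Λ.b
  -- `π ^ c d g ∈ O` for all `g`
  have h1 : ∃ c : ℕ, ∀ g, algebraMap K L (S.π ^ c) * d g ∈ S.O := by
    choose N hN using fun g => S.exists_pow_mul_mem_O (d g)
    refine ⟨univ.sup N, fun g => ?_⟩
    obtain ⟨j, hj⟩ := Nat.exists_eq_add_of_le (Finset.le_sup (f := N) (mem_univ g))
    rw [hj, pow_add, mul_comm (S.π ^ N g), map_mul, mul_assoc]
    exact mul_mem (S.π_pow_mem j) (hN g)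
  obtain ⟨c, hc⟩ := h1
  refine ⟨c, fun x hx g => ?_⟩
  rw [map_smul, Finsupp.smul_apply, smul_eq_mul, S.mem_I_zero]
  have e : Λ.b.repr x g = B x (d g) := by
    conv_lhs => rw [← hbd]
    rw [LinearMap.BilinForm.dualBasis_repr_apply]
  rw [e, Algebra.traceForm_apply]
  have e2 : S.π ^ c * Algebra.trace K L (x * d g) =
      Algebra.trace K L (x * (algebraMap K L (S.π ^ c) * d g)) := by
    rw [← smul_eq_mul, ← map_smul, Algebra.smul_def]
    congr 1
    ring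
  rw [e2]
  exact S.trace_mem_OK (mul_mem hx (hc g))

end NILattice

/-- A normal basis lattice exists. -/
theorem NIBase.exists_lattice (S : NIBase K L) : Nonempty (NILattice S) := by
  classical
  set b₀ := IsGalois.normalBasis K L with hb₀def
  set θ₀ := b₀ 1 with hθ₀
  have hb₀ : ∀ g, b₀ g = g θ₀ := fun g => IsGalois.normalBasis_apply g
  obtain ⟨n₁, hn₁⟩ := S.exists_pow_mul_mem_family
    (fun t : (L ≃ₐ[K] L) × (L ≃ₐ[K] L) × (L ≃ₐ[K] L) => b₀.repr (b₀ t.1 * b₀ t.2.1) t.2.2)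
  obtain ⟨n₂, hn₂⟩ := S.exists_pow_mul_mem_O θ₀
  set n := max n₁ n₂ with hn
  have hu : ∀ _ : (L ≃ₐ[K] L), IsUnit (S.π ^ n) := fun _ => (pow_ne_zero _ S.π_ne_zero).isUnit
  refine ⟨{ θ := S.π ^ n • θ₀, b := b₀.isUnitSMul hu, hb := ?_, hθ := ?_, hmul := ?_ }⟩
  · intro g
    rw [Module.Basis.isUnitSMul_apply, hb₀, map_smul]
  · obtain ⟨j, hj⟩ := Nat.exists_eq_add_of_le (le_max_right n₁ n₂)
    rw [Algebra.smul_def, hn, hj, pow_add, mul_comm (S.π ^ n₂), map_mul, mul_assoc]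
    exact mul_mem (S.π_pow_mem j) hn₂
  · intro g h k
    rw [Module.Basis.repr_isUnitSMul, Module.Basis.isUnitSMul_apply,
      Module.Basis.isUnitSMul_apply, smul_mul_smul_comm, map_smul, Finsupp.smul_apply,
      Units.smul_def, smul_eq_mul, smul_eq_mul]
    have e : ((hu k).unit⁻¹ : Kˣ).val * (S.π ^ n * S.π ^ n * b₀.repr (b₀ g * b₀ h) k) =
        S.π ^ n * b₀.repr (b₀ g * b₀ h) k := by
      rw [Units.val_inv_eq_inv_val, IsUnit.unit_spec]
      field_simp [S.π_ne_zero]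
    rw [e]
    exact hn₁ n (le_max_left _ _) (g, h, k)

end Fermat.Agent.F4Loc
end MergeWrap_F4_Loc_NormIdx_Lattice

section MergeWrap_F4_Loc_NormIdx_V -- from F4/Loc/NormIdx/V.lean

/-!
# F4/Loc/NormIdx: the unit groups `V m = 1 + π^(m+1) M` and surjectivity of the norm (helper91)

* `Λ.V m : Subgroup Lˣ`, Galois stable;
* `Λ.exists_norm_eq` (**V1**): if `π ^ m / t₀ ∈ O_K`, every element of `K ∩ (1 + π^(m+1) M)` is the
  norm of an element of `1 + π^(m+1) M` (Hensel).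
-/

set_option autoImplicit false
set_option linter.unusedSectionVars false

open Finset Polynomial
open scoped Classical

namespace Fermat.Agent.F4Loc

variable {K L : Type*} [Field K] [Field L] [Algebra K L] [FiniteDimensional K L] [IsGalois K L]

namespace NILattice

variable {S : NIBase K L} (Λ : NILattice S)

/-- `Λ.P n y` : `y ∈ 1 + π ^ n M`. -/
def P (n : ℕ) (y : L) : Prop := y - 1 ∈ Λ.Mn n

theorem P_def {n : ℕ} {y : L} : Λ.P n y ↔ y - 1 ∈ Λ.Mn n := Iff.rfl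

theorem P_one (n : ℕ) : Λ.P n 1 := by
  rw [P_def, sub_self]
  exact zero_mem _

theorem P_mul {n : ℕ} {x y : L} (hx : Λ.P n x) (hy : Λ.P n y) : Λ.P n (x * y) := by
  rw [P_def] at *
  have e : x * y - 1 = (x - 1) * (y - 1) + (x - 1) + (y - 1) := by ring
  rw [e]
  exact add_mem (add_mem (Λ.Mn_anti (Nat.le_add_right n n) (Λ.mul_mem_Mn hx hy)) hx) hy

theorem P_gal {n : ℕ} (σ : L ≃ₐ[K] L) {x : L} (hx : Λ.P n x) : Λ.P n (σ x) := by
  rw [P_def] at *
  have := Λ.gal_mem_Mn σ hx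
  rwa [map_sub, map_one] at this

theorem P_prod {n : ℕ} {ι : Type*} (s : Finset ι) (f : ι → L) (h : ∀ i ∈ s, Λ.P n (f i)) :
    Λ.P n (∏ i ∈ s, f i) := by
  induction s using Finset.induction_on with
  | empty => simpa using Λ.P_one n
  | insert i s hi ih =>
    rw [Finset.prod_insert hi]
    exact Λ.P_mul (h i (mem_insert_self i s)) (ih fun j hj => h j (mem_insert_of_mem hj))

theorem P_anti {n m : ℕ} (h : n ≤ m) {x : L} (hx : Λ.P m x) : Λ.P n x := Λ.Mn_anti h hx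

/-- for `a ∈ K`: `a ∈ 1 + π^n M ↔ (a - 1) / t₀ ∈ π^n O_K`. -/
theorem P_algebraMap {n : ℕ} {a : K} : Λ.P n (algebraMap K L a) ↔ (a - 1) / Λ.t₀ ∈ S.I n := by
  rw [P_def, ← Λ.algebraMap_mem_Mn, map_sub, map_one]

theorem mem_I_of_P_algebraMap {n : ℕ} {a : K} (h : Λ.P n (algebraMap K L a)) : a - 1 ∈ S.I n := by
  have := S.mul_mem_I_right (Λ.P_algebraMap.mp h) Λ.t₀_mem
  rwa [div_mul_cancel₀ _ Λ.t₀_ne_zero] at this

theorem P_algebraMap_inv {n : ℕ} (hn : 1 ≤ n) {a : K} (h : Λ.P n (algebraMap K L a)) :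
    Λ.P n (algebraMap K L a⁻¹) := by
  have h1 := Λ.mem_I_of_P_algebraMap h
  have h2 : (1 + (a - 1))⁻¹ ∈ S.OK := S.inv_one_add_mem (S.I_anti hn h1)
  have ha : 1 + (a - 1) = a := by ring
  rw [ha] at h2
  have ha0 : a ≠ 0 := by
    have := S.one_add_ne_zero (S.I_anti hn h1)
    rwa [ha] at this
  rw [P_algebraMap] at h ⊢
  have e : (a⁻¹ - 1) / Λ.t₀ = -(a⁻¹ * ((a - 1) / Λ.t₀)) := by
    field_simp
    ring
  rw [e]
  exact neg_mem (S.mul_mem_I_left h2 h)

theorem ne_zero_of_P {n : ℕ} (hn : 1 ≤ n) {x : L} (hx : Λ.P n x) : x ≠ 0 := by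
  intro h
  rw [P_def, h, zero_sub] at hx
  obtain ⟨y, hy, e⟩ := Λ.Mn_le_O (Λ.Mn_anti hn (neg_mem hx))
  rw [neg_neg, pow_one] at e
  apply S.hπnu
  have : (algebraMap K L S.π)⁻¹ = y := inv_eq_of_mul_eq_one_right e.symm
  rw [this]
  exact hy

theorem P_norm {n : ℕ} {x : L} (hx : Λ.P n x) : Λ.P n (algebraMap K L (Algebra.norm K x)) := by
  rw [Algebra.norm_eq_prod_automorphisms]
  exact Λ.P_prod _ _ fun g _ => Λ.P_gal g hx

theorem P_inv {n : ℕ} (hn : 1 ≤ n) {x : L} (hx : Λ.P n x) : Λ.P n x⁻¹ := by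
  have hx0 := Λ.ne_zero_of_P hn hx
  have h1 := Λ.P_algebraMap_inv hn (Λ.P_norm hx)
  have h2 : Λ.P n (∏ g ∈ (univ : Finset (L ≃ₐ[K] L)).erase 1, g x) :=
    Λ.P_prod _ _ fun g _ => Λ.P_gal g hx
  have e : x⁻¹ = algebraMap K L (Algebra.norm K x)⁻¹ *
      ∏ g ∈ (univ : Finset (L ≃ₐ[K] L)).erase 1, g x := by
    have := NIBase.eq_norm_mul_prod (K := K) x⁻¹ (inv_ne_zero hx0)
    rw [inv_inv, Algebra.norm_inv] at this
    exact this
  rw [e]
  exact Λ.P_mul h1 h2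

/-- `V m = 1 + π ^ (m + 1) M` as a subgroup of `Lˣ`. -/
def V (m : ℕ) : Subgroup Lˣ where
  carrier := {u | Λ.P (m + 1) (u : L)}
  mul_mem' := by
    intro u v hu hv
    show Λ.P (m + 1) ((u * v : Lˣ) : L)
    rw [Units.val_mul]
    exact Λ.P_mul hu hv
  one_mem' := Λ.P_one _
  inv_mem' := by
    intro u hu
    show Λ.P (m + 1) ((u⁻¹ : Lˣ) : L)
    rw [Units.val_inv_eq_inv_val]
    exact Λ.P_inv (Nat.le_add_left 1 m) hu

theorem mem_V {m : ℕ} {u : Lˣ} : u ∈ Λ.V m ↔ Λ.P (m + 1) (u : L) := Iff.rfl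

/-! ### The norm polynomial -/

/-- `∏_g (1 + (g θ) X)`. -/
noncomputable def Qpoly : L[X] := ∏ g : L ≃ₐ[K] L, (1 + C (Λ.b g) * X)

theorem Qpoly_map (σ : L ≃ₐ[K] L) : Λ.Qpoly.map (σ : L →+* L) = Λ.Qpoly := by
  rw [Qpoly, Polynomial.map_prod]
  rw [← Fintype.prod_equiv (Equiv.mulLeft σ) (fun g => 1 + C (Λ.b (σ * g)) * X)
    (fun g => 1 + C (Λ.b g) * X) (fun g => rfl)]
  refine Finset.prod_congr rfl fun g _ => ?_
  rw [Polynomial.map_add, Polynomial.map_one, Polynomial.map_mul, Polynomial.map_C,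
    Polynomial.map_X, Λ.hb, Λ.hb]
  rfl

theorem Qpoly_coeff_fixed (σ : L ≃ₐ[K] L) (k : ℕ) : σ (Λ.Qpoly.coeff k) = Λ.Qpoly.coeff k := by
  conv_rhs => rw [← Λ.Qpoly_map σ]
  rw [Polynomial.coeff_map]
  rfl

theorem exists_coeff (k : ℕ) : ∃ e : K, algebraMap K L e = Λ.Qpoly.coeff k := by
  have := (IsGalois.mem_range_algebraMap_iff_fixed (F := K) (Λ.Qpoly.coeff k)).mpr
    (fun σ => Λ.Qpoly_coeff_fixed σ k)
  exact this

/-- the coefficients of the norm polynomial, in `K`. -/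
noncomputable def e (k : ℕ) : K := (Λ.exists_coeff k).choose

theorem algebraMap_e (k : ℕ) : algebraMap K L (Λ.e k) = Λ.Qpoly.coeff k :=
  (Λ.exists_coeff k).choose_spec

theorem Qpoly_coeff_mem (k : ℕ) : Λ.Qpoly.coeff k ∈ S.O := by
  have e : Λ.Qpoly = (∏ g : L ≃ₐ[K] L,
      (1 + C (⟨Λ.b g, Λ.b_mem_O g⟩ : S.O) * X)).map S.O.subtype := by
    rw [Qpoly, Polynomial.map_prod]
    refine Finset.prod_congr rfl fun g _ => ?_
    rw [Polynomial.map_add, Polynomial.map_one, Polynomial.map_mul, Polynomial.map_C,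
      Polynomial.map_X]
    rfl
  rw [e, Polynomial.coeff_map]
  exact Subtype.property _

theorem e_mem (k : ℕ) : Λ.e k ∈ S.OK := by
  rw [S.mem_OK, Λ.algebraMap_e]
  exact Λ.Qpoly_coeff_mem k

theorem Qpoly_coeff_zero_one : ∀ s : Finset (L ≃ₐ[K] L),
    (∏ g ∈ s, (1 + C (Λ.b g) * X)).coeff 0 = 1 ∧
    (∏ g ∈ s, (1 + C (Λ.b g) * X)).coeff 1 = ∑ g ∈ s, Λ.b g := by
  intro s
  induction s using Finset.induction_on with
  | empty => simp [Polynomial.coeff_one]
  | insert i s hi ih =>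
    rw [Finset.prod_insert hi, Finset.sum_insert hi]
    constructor
    · rw [Polynomial.mul_coeff_zero, ih.1]
      simp
    · rw [Polynomial.mul_coeff_one, ih.1, ih.2]
      simp [Polynomial.coeff_one]
      ring

theorem e_zero : Λ.e 0 = 1 := by
  apply (algebraMap K L).injective
  rw [Λ.algebraMap_e, map_one]
  exact (Λ.Qpoly_coeff_zero_one univ).1

theorem e_one : Λ.e 1 = Λ.t₀ := by
  apply (algebraMap K L).injective
  rw [Λ.algebraMap_e, Λ.algebraMap_t₀]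
  exact (Λ.Qpoly_coeff_zero_one univ).2

theorem natDegree_Qpoly_le : Λ.Qpoly.natDegree ≤ Fintype.card (L ≃ₐ[K] L) := by
  refine le_trans (Polynomial.natDegree_prod_le _ _) ?_
  refine le_trans (Finset.sum_le_sum (g := fun _ => 1) fun g _ => ?_) (by simp)
  refine le_trans (Polynomial.natDegree_add_le _ _) ?_
  rw [Polynomial.natDegree_one]
  refine max_le (Nat.zero_le _) ?_
  exact le_trans (Polynomial.natDegree_C_mul_le _ _) Polynomial.natDegree_X_le

/-- `N(1 + y θ) = ∑ e_k y^k`. -/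
theorem norm_one_add (y : K) :
    Algebra.norm K (1 + y • Λ.θ) =
      ∑ k ∈ range (Fintype.card (L ≃ₐ[K] L) + 2), Λ.e k * y ^ k := by
  apply (algebraMap K L).injective
  rw [Algebra.norm_eq_prod_automorphisms, map_sum]
  have h1 : ∏ σ : L ≃ₐ[K] L, σ (1 + y • Λ.θ) = Λ.Qpoly.eval (algebraMap K L y) := by
    rw [Qpoly, Polynomial.eval_prod]
    refine Finset.prod_congr rfl fun g _ => ?_
    rw [map_add, map_one, map_smul, Polynomial.eval_add, Polynomial.eval_one,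
      Polynomial.eval_mul, Polynomial.eval_C, Polynomial.eval_X, Λ.hb, Algebra.smul_def,
      mul_comm]
  rw [h1, Polynomial.eval_eq_sum_range' (n := Fintype.card (L ≃ₐ[K] L) + 2)
    (lt_of_le_of_lt Λ.natDegree_Qpoly_le (by omega))]
  refine Finset.sum_congr rfl fun k _ => ?_
  rw [map_mul, map_pow, Λ.algebraMap_e]

/-- **V1**: surjectivity of the norm on `1 + π ^ (m + 1) M`. -/
theorem exists_norm_eq
    (hens : ∀ (d : ℕ) (c : ℕ → K), (∀ i, algebraMap K L (c i) ∈ S.O) → c 1 = 1 →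
      (∀ i, 2 ≤ i → algebraMap K L (c i / S.π) ∈ S.O) →
      ∃ x : K, algebraMap K L x ∈ S.O ∧ ∑ i ∈ Finset.range (d + 2), c i * x ^ i = 0)
    (m : ℕ) (hm : S.π ^ m / Λ.t₀ ∈ S.OK) (a : K)
    (ha : Λ.P (m + 1) (algebraMap K L a)) :
    ∃ y : L, Λ.P (m + 1) y ∧ Algebra.norm K y = a := by
  set D := S.π ^ (m + 1) * Λ.t₀ with hD
  have hD0 : D ≠ 0 := mul_ne_zero (pow_ne_zero _ S.π_ne_zero) Λ.t₀_ne_zero
  set c : ℕ → K := fun k => (S.π ^ ((m + 1) * k) * Λ.e k - if k = 0 then a else 0) / D with hc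
  have hc0 : c 0 ∈ S.OK := by
    have h1 := Λ.P_algebraMap.mp ha
    rw [S.mem_I] at h1
    have e : c 0 = -((a - 1) / Λ.t₀ / S.π ^ (m + 1)) := by
      simp only [hc, hD, mul_zero, pow_zero, Λ.e_zero, if_true]
      field_simp
      ring
    rw [e]
    exact neg_mem h1
  have hc1 : c 1 = 1 := by
    simp only [hc, hD, mul_one, Λ.e_one, one_ne_zero, if_false, sub_zero]
    exact div_self hD0
  have hc2 : ∀ k, 2 ≤ k → c k / S.π ∈ S.OK := by
    intro k hk
    obtain ⟨j, rfl⟩ := Nat.exists_eq_add_of_le hk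
    have e : c (2 + j) / S.π = (S.π ^ m / Λ.t₀) * (S.π ^ ((m + 1) * j) * Λ.e (2 + j)) := by
      have h20 : (2 + j) ≠ 0 := by omega
      simp only [hc, hD, h20, if_false, sub_zero]
      have : (m + 1) * (2 + j) = (m + 1) + 1 + m + (m + 1) * j := by ring
      rw [this, pow_add, pow_add, pow_succ S.π (m + 1)]
      have hπ := S.π_ne_zero
      have ht := Λ.t₀_ne_zero
      field_simp
    rw [e]
    exact mul_mem hm (mul_mem (S.π_pow_mem _) (Λ.e_mem _))
  have hcmem : ∀ k, algebraMap K L (c k) ∈ S.O := by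
    intro k
    rcases Nat.lt_or_ge k 2 with h | h
    · interval_cases k
      · exact hc0
      · rw [hc1, map_one]; exact one_mem _
    · have := mul_mem S.π_mem (hc2 k h)
      rw [mul_div_cancel₀ _ S.π_ne_zero] at this
      exact this
  obtain ⟨x, hx, hsum⟩ := hens (Fintype.card (L ≃ₐ[K] L)) c hcmem hc1 hc2
  refine ⟨1 + (S.π ^ (m + 1) * x) • Λ.θ, ?_, ?_⟩
  · rw [P_def, add_sub_cancel_left]
    have h1 : Λ.θ = Λ.b 1 := by rw [Λ.hb]; rfl
    rw [h1]
    have := Λ.smul_mem_Mn (S.pow_mul_mem_I (n := m + 1) hx) (Λ.b_mem 1)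
    rwa [add_zero] at this
  · rw [Λ.norm_one_add]
    have h2 : ∑ k ∈ range (Fintype.card (L ≃ₐ[K] L) + 2), c k * x ^ k =
        (∑ k ∈ range (Fintype.card (L ≃ₐ[K] L) + 2), Λ.e k * (S.π ^ (m + 1) * x) ^ k - a) / D := by
      rw [sub_div, Finset.sum_div]
      have h3 : ∀ k ∈ range (Fintype.card (L ≃ₐ[K] L) + 2), c k * x ^ k =
          Λ.e k * (S.π ^ (m + 1) * x) ^ k / D - (if k = 0 then a / D else 0) := by
        intro k _
        simp only [hc]
        split_ifs with h0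
        · subst h0
          simp only [mul_zero, pow_zero, mul_one]
          ring
        · rw [sub_zero, sub_zero, mul_pow, ← pow_mul]
          ring
      rw [Finset.sum_congr rfl h3, Finset.sum_sub_distrib, Finset.sum_ite_eq' ]
      simp
    rw [h2] at hsum
    have := (div_eq_zero_iff.mp hsum).resolve_right hD0
    exact sub_eq_zero.mp this

end NILattice

end Fermat.Agent.F4Loc
end MergeWrap_F4_Loc_NormIdx_V

section MergeWrap_F4_Loc_NormIdx_V2 -- from F4/Loc/NormIdx/V2.lean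

/-!
# F4/Loc/NormIdx: Hilbert 90 inside `V m` (helper91)

`Λ.exists_twist_eq` (**V2**): for a generator `σ` of the Galois group, every `u ∈ 1 + π^(m+1) M`
of norm `1` is `σ c / c` with `c ∈ 1 + π^(m+1) M`.  (Hilbert 90 + a saturation argument in the
lattice `M`; no Hensel.)
-/

set_option autoImplicit false
set_option linter.unusedSectionVars false

open Finset
open scoped Classical

namespace Fermat.Agent.F4Loc

variable {K L : Type} [Field K] [Field L] [Algebra K L] [FiniteDimensional K L] [IsGalois K L]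

namespace NILattice

variable {S : NIBase K L} (Λ : NILattice S)

theorem exists_pow_eq_of_gen (σ : L ≃ₐ[K] L) (hσ : ∀ g, g ∈ Subgroup.zpowers σ)
    (g : L ≃ₐ[K] L) : ∃ k : ℕ, σ ^ k = g := by
  have := (mem_powers_iff_mem_zpowers (x := σ) (y := g)).mpr (hσ g)
  exact Submonoid.mem_powers_iff _ _ |>.mp this

/-- if the coordinates of `σ x - x` and one coordinate of `x` are in `π^n O_K`, then
`x ∈ π^n M`. -/
theorem sat_coord (σ : L ≃ₐ[K] L) (hσ : ∀ g, g ∈ Subgroup.zpowers σ) (n : ℕ) (x : L)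
    (h1 : Λ.b.repr x 1 ∈ S.I n) (h2 : σ x - x ∈ Λ.Mn n) : x ∈ Λ.Mn n := by
  have key : ∀ k : ℕ, Λ.b.repr x (σ ^ k) ∈ S.I n := by
    intro k
    induction k with
    | zero => simpa using h1
    | succ k ih =>
      have h3 := h2 (σ ^ (k + 1))
      rw [map_sub, Finsupp.sub_apply, Λ.repr_gal] at h3
      have e : σ⁻¹ * σ ^ (k + 1) = σ ^ k := by
        rw [pow_succ', inv_mul_cancel_left]
      rw [e] at h3
      have := sub_mem ih h3
      rwa [sub_sub_cancel] at this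
  intro g
  obtain ⟨k, rfl⟩ := exists_pow_eq_of_gen σ hσ g
  exact key k

theorem sat_step (σ : L ≃ₐ[K] L) (hσ : ∀ g, g ∈ Subgroup.zpowers σ) (m : ℕ) (u : L)
    (hu : Λ.P (m + 1) u) (x : L) (hx0 : Λ.b.repr x 1 = 0) (hT : σ x - u * x ∈ Λ.Mn 0) :
    ∀ k : ℕ, S.π ^ k • x ∈ Λ.Mn 0 → x ∈ Λ.Mn 0 := by
  intro k
  induction k with
  | zero =>
    intro h
    simpa using h
  | succ k ih =>
    intro hk
    apply ih
    set x' := S.π ^ (k + 1) • x with hx'
    have h1 : Λ.b.repr x' 1 ∈ S.I 1 := by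
      rw [hx', map_smul, Finsupp.smul_apply, hx0, smul_zero]
      exact zero_mem _
    have h2 : σ x' - x' ∈ Λ.Mn 1 := by
      have e : σ x' - x' = S.π ^ (k + 1) • (σ x - u * x) + (u - 1) * x' := by
        rw [hx', map_smul]
        simp only [Algebra.smul_def]
        ring
      rw [e]
      refine add_mem ?_ ?_
      · have := Λ.smul_mem_Mn (S.pow_mul_mem_I (n := k + 1) (one_mem _)) hT
        rw [mul_one, add_zero] at this
        exact Λ.Mn_anti (Nat.le_add_left 1 k) this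
      · have := Λ.mul_mem_Mn hu hk
        rw [add_zero] at this
        exact Λ.Mn_anti (Nat.le_add_left 1 m) this
    have h3 := Λ.sat_coord σ hσ 1 x' h1 h2
    have e : x' = S.π ^ 1 • (S.π ^ k • x) := by
      rw [hx', smul_smul, ← pow_add, add_comm]
    rw [e] at h3
    exact (Λ.pow_smul_mem_Mn_iff (k := 1) (n := 0)).mp h3

/-- saturation: `x` with vanishing first coordinate and `σ x - u x ∈ M` lies in `M`. -/
theorem sat (σ : L ≃ₐ[K] L) (hσ : ∀ g, g ∈ Subgroup.zpowers σ) (m : ℕ) (u : L)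
    (hu : Λ.P (m + 1) u) (x : L) (hx0 : Λ.b.repr x 1 = 0) (hT : σ x - u * x ∈ Λ.Mn 0) :
    x ∈ Λ.Mn 0 := by
  obtain ⟨k, hk⟩ := Λ.exists_pow_smul_mem x
  exact Λ.sat_step σ hσ m u hu x hx0 hT k hk

theorem twist_inj (σ : L ≃ₐ[K] L) (hσ : ∀ g, g ∈ Subgroup.zpowers σ) (m : ℕ) (u : L)
    (hu : Λ.P (m + 1) u) (x : L) (hx0 : Λ.b.repr x 1 = 0) (hT : σ x = u * x) : x = 0 := by
  apply Λ.eq_zero_of_forall_mem_Mn
  intro n
  set y := (S.π ^ n)⁻¹ • x with hy
  have hπ : S.π ^ n ≠ 0 := pow_ne_zero _ S.π_ne_zero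
  have h1 : Λ.b.repr y 1 = 0 := by
    rw [hy, map_smul, Finsupp.smul_apply, hx0, smul_zero]
  have h2 : σ y - u * y ∈ Λ.Mn 0 := by
    have : σ y - u * y = 0 := by
      rw [hy, map_smul, hT, mul_smul_comm, sub_self]
    rw [this]
    exact zero_mem _
  have h3 := Λ.sat σ hσ m u hu y h1 h2
  have e : x = S.π ^ n • y := by
    rw [hy, smul_smul, mul_inv_cancel₀ hπ, one_smul]
  rw [e]
  have := (Λ.pow_smul_mem_Mn_iff (k := n) (n := 0) (x := y)).mpr h3
  rwa [zero_add] at this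

/-- **V2**: Hilbert 90 inside `1 + π ^ (m + 1) M`. -/
theorem exists_twist_eq (σ : L ≃ₐ[K] L) (hσ : ∀ g, g ∈ Subgroup.zpowers σ) (m : ℕ) (u : L)
    (hu : Λ.P (m + 1) u) (hN : Algebra.norm K u = 1) :
    ∃ c : L, Λ.P (m + 1) c ∧ σ c = u * c := by
  have : IsCyclic (L ≃ₐ[K] L) := ⟨⟨σ, hσ⟩⟩
  have hu0 : u ≠ 0 := Λ.ne_zero_of_P (Nat.le_add_left 1 m) hu
  have hNinv : Algebra.norm K u⁻¹ = 1 := by
    rw [Algebra.norm_inv, hN, inv_one]
  obtain ⟨y, hy⟩ := groupCohomology.exists_div_of_norm_eq_one (K := K) hσ hNinv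
  -- `y₀` spans the kernel of `T = σ - u`
  set y₀ : L := (y : L) with hy₀
  have hy0 : y₀ ≠ 0 := y.ne_zero
  have hσy0 : σ y₀ ≠ 0 := by
    rw [Ne, map_eq_zero]
    exact hy0
  have hTy : σ y₀ = u * y₀ := by
    have h1 : y₀ / σ y₀ = u⁻¹ := hy
    field_simp at h1
    rw [mul_comm]
    exact h1.symm
  have hr₀ : Λ.b.repr y₀ 1 ≠ 0 := fun h => hy0 (Λ.twist_inj σ hσ m u hu y₀ h hTy)
  set ϖ := S.π ^ (m + 1) with hϖ
  have hϖ0 : ϖ ≠ 0 := pow_ne_zero _ S.π_ne_zero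
  set z : L := -(algebraMap K L ϖ⁻¹) with hz
  set μ : L := ϖ⁻¹ • (u - 1) with hμ
  have hμmem : μ ∈ Λ.Mn 0 := by
    have h1 : ϖ • μ ∈ Λ.Mn (0 + (m + 1)) := by
      rw [hμ, smul_smul, mul_inv_cancel₀ hϖ0, one_smul, zero_add]
      exact hu
    exact (Λ.pow_smul_mem_Mn_iff (k := m + 1) (n := 0)).mp h1
  have hTz : σ z - u * z = μ := by
    rw [hz, hμ, map_neg, AlgEquiv.commutes, Algebra.smul_def]
    ring
  set lam : K := Λ.b.repr z 1 / Λ.b.repr y₀ 1 with hlam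
  set γ : L := z - lam • y₀ with hγ
  have hγ0 : Λ.b.repr γ 1 = 0 := by
    rw [hγ, map_sub, map_smul, Finsupp.sub_apply, Finsupp.smul_apply, smul_eq_mul, hlam,
      div_mul_cancel₀ _ hr₀, sub_self]
  have hTγ : σ γ - u * γ = μ := by
    rw [hγ, map_sub, map_smul, hTy, mul_sub, mul_smul_comm, ← hTz]
    ring
  have hγmem : γ ∈ Λ.Mn 0 := Λ.sat σ hσ m u hu γ hγ0 (by rw [hTγ]; exact hμmem)
  refine ⟨1 + ϖ • γ, ?_, ?_⟩
  · rw [P_def, add_sub_cancel_left]
    have := (Λ.pow_smul_mem_Mn_iff (k := m + 1) (n := 0) (x := γ)).mpr hγmem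
    rwa [zero_add] at this
  · have h1 : σ γ = u * γ + μ := by rw [← hTγ]; ring
    rw [map_add, map_one, map_smul, h1, smul_add, hμ, smul_smul, mul_inv_cancel₀ hϖ0, one_smul,
      mul_add, mul_one, mul_smul_comm]
    ring

end NILattice

end Fermat.Agent.F4Loc
end MergeWrap_F4_Loc_NormIdx_V2

section MergeWrap_F4_Loc_NormIdx_Fin -- from F4/Loc/NormIdx/Fin.lean

/-!
# F4/Loc/NormIdx: `V m · π^ℤ` has finite index in `Lˣ` (helper91)
-/

set_option autoImplicit false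
set_option linter.unusedSectionVars false

open Finset
open scoped Classical Pointwise

namespace Fermat.Agent.F4Loc

/-- Choosing representatives: for a finite index set and a family of predicates, there is a
finite set containing a witness of every satisfiable predicate. -/
theorem exists_finset_reps {G ι : Type*} [One G] (s : Finset ι) (Q : ι → G → Prop) :
    ∃ F : Finset G, ∀ i ∈ s, ∀ x, Q i x → ∃ y ∈ F, Q i y := by
  classical
  refine ⟨s.image (fun i => if h : ∃ y, Q i y then h.choose else 1), fun i hi x hx => ?_⟩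
  have h : ∃ y, Q i y := ⟨x, hx⟩
  refine ⟨h.choose, ?_, h.choose_spec⟩
  rw [Finset.mem_image]
  exact ⟨i, hi, by rw [dif_pos h]⟩

/-- A subgroup with a finite set of coset representatives has finite index. -/
theorem index_ne_zero_of_reps {G : Type*} [Group G] (H : Subgroup G) (F : Finset G)
    (h : ∀ x : G, ∃ t ∈ F, t⁻¹ * x ∈ H) : H.index ≠ 0 := by
  have hcov : ⋃ i ∈ F, (id i : G) • (H : Set G) = Set.univ := by
    rw [Set.eq_univ_iff_forall]
    intro x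
    obtain ⟨t, ht, hx⟩ := h x
    rw [Set.mem_iUnion₂]
    exact ⟨t, ht, by rw [id, mem_leftCoset_iff]; exact hx⟩
  have := Subgroup.finiteIndex_of_leftCoset_cover_const hcov
  exact Subgroup.FiniteIndex.index_ne_zero

variable {K L : Type*} [Field K] [Field L] [Algebra K L]

namespace NIBase

variable (S : NIBase K L)

/-- `π` as a unit of `L`. -/
noncomputable def πu : Lˣ := Units.mk0 (algebraMap K L S.π) S.πL_ne_zero

@[simp] theorem coe_πu : (S.πu : L) = algebraMap K L S.π := rfl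

/-- finitely many representatives of `O_K / π^n O_K`. -/
theorem exists_reps_I (n : ℕ) : ∃ T : Finset K, ∀ a ∈ S.OK, ∃ s ∈ T, a - s ∈ S.I n := by
  induction n with
  | zero =>
    refine ⟨{0}, fun a ha => ⟨0, Finset.mem_singleton_self 0, ?_⟩⟩
    rw [sub_zero, S.mem_I_zero]
    exact ha
  | succ n ih =>
    obtain ⟨T, hT⟩ := ih
    obtain ⟨T₁, hT₁⟩ := S.fin
    refine ⟨Finset.image₂ (fun s s' => s + S.π ^ n * s') T T₁, fun a ha => ?_⟩
    obtain ⟨s, hs, has⟩ := hT a ha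
    obtain ⟨a', ha', e⟩ := S.mem_I_iff_exists.mp has
    obtain ⟨s', hs', h'⟩ := hT₁ a' ha'
    refine ⟨s + S.π ^ n * s', Finset.mem_image₂_of_mem hs hs', ?_⟩
    have e2 : a - (s + S.π ^ n * s') = S.π ^ (n + 1) * ((a' - s') / S.π) := by
      have hπ := S.π_ne_zero
      rw [pow_succ]
      field_simp
      linear_combination e
    rw [e2]
    exact S.pow_mul_mem_I h'

end NIBase

variable [FiniteDimensional K L] [IsGalois K L]

namespace NILattice

variable {S : NIBase K L} (Λ : NILattice S)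

/-- finitely many representatives of `M / π^n M`. -/
theorem exists_reps_Mn (n : ℕ) : ∃ R : Finset L, ∀ x ∈ Λ.Mn 0, ∃ r ∈ R, x - r ∈ Λ.Mn n := by
  obtain ⟨T, hT⟩ := S.exists_reps_I n
  refine ⟨(Fintype.piFinset fun _ : L ≃ₐ[K] L => T).image (fun s => ∑ g, s g • Λ.b g),
    fun x hx => ?_⟩
  have h1 : ∀ g, ∃ s ∈ T, Λ.b.repr x g - s ∈ S.I n := fun g => hT _ (S.mem_I_zero.mp (hx g))
  choose s hs hs' using h1
  refine ⟨∑ g, s g • Λ.b g, ?_, ?_⟩
  · rw [Finset.mem_image]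
    exact ⟨s, by rw [Fintype.mem_piFinset]; exact hs, rfl⟩
  · intro g
    rw [map_sub, Finsupp.sub_apply, Module.Basis.repr_sum_self]
    exact hs' g

/-- finitely many representatives of `U_L / V m`. -/
theorem exists_reps_units (m : ℕ) : ∃ F : Finset Lˣ, ∀ w : Lˣ, (w : L) ∈ S.O →
    ((w⁻¹ : Lˣ) : L) ∈ S.O → ∃ u ∈ F, u⁻¹ * w ∈ Λ.V m := by
  obtain ⟨c, hc⟩ := Λ.exists_pow_smul_mem_of_mem_O
  set n := (m + 1) + (c + c) with hn
  obtain ⟨R, hR⟩ := Λ.exists_reps_Mn n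
  obtain ⟨F, hF⟩ := exists_finset_reps (G := Lˣ) R
    (fun r w => (w : L) ∈ S.O ∧ ((w⁻¹ : Lˣ) : L) ∈ S.O ∧ S.π ^ c • (w : L) - r ∈ Λ.Mn n)
  refine ⟨F, fun w hw hw' => ?_⟩
  obtain ⟨r, hr, hwr⟩ := hR _ (hc _ hw)
  obtain ⟨y, hy, hy1, hy2, hy3⟩ := hF r hr w ⟨hw, hw', hwr⟩
  refine ⟨y, hy, ?_⟩
  rw [mem_V, P_def]
  have h1 : S.π ^ c • ((w : L) - (y : L)) ∈ Λ.Mn n := by
    have := sub_mem hwr hy3
    rwa [sub_sub_sub_cancel_right, ← smul_sub] at this
  have h2 := Λ.mul_mem_Mn (hc _ hy2) h1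
  rw [zero_add] at h2
  have e : S.π ^ c • (((y⁻¹ : Lˣ) : L)) * S.π ^ c • ((w : L) - (y : L)) =
      S.π ^ (c + c) • (((y⁻¹ * w : Lˣ) : L) - 1) := by
    rw [smul_mul_smul_comm, ← pow_add, Units.val_mul, mul_sub, Units.inv_mul]
  rw [e, hn] at h2
  exact Λ.pow_smul_mem_Mn_iff.mp h2

end NILattice

namespace NIBase

theorem norm_πu_zpow (S : NIBase K L) (q : ℤ) :
    Algebra.norm K ((S.πu ^ q : Lˣ) : L) = (S.π ^ Module.finrank K L) ^ q := by
  have h := map_zpow (Units.map (Algebra.norm K : L →* K)) S.πu q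
  have h2 := congrArg Units.val h
  simp only [Units.coe_map, Units.val_zpow_eq_zpow_val] at h2
  rw [Units.val_zpow_eq_zpow_val]
  rw [h2, NIBase.coe_πu, Algebra.norm_algebraMap]

/-- finitely many representatives of `Lˣ / (U_L π^ℤ)`. -/
theorem exists_reps_norm (S : NIBase K L) : ∃ F : Finset Lˣ, ∀ x : Lˣ, ∃ y ∈ F,
    ∃ (q : ℤ) (w : Lˣ),
    (w : L) ∈ S.O ∧ ((w⁻¹ : Lˣ) : L) ∈ S.O ∧ y⁻¹ * x = w * S.πu ^ q := by
  obtain ⟨R, hR⟩ := S.disc
  set p := Module.finrank K L with hp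
  have hp0 : 0 < p := Module.finrank_pos
  have hpz : (0 : ℤ) < (p : ℤ) := by exact_mod_cast hp0
  have hπ := S.π_ne_zero
  set A : K := S.π ^ p with hA
  have hA0 : A ≠ 0 := pow_ne_zero _ hπ
  obtain ⟨F, hF⟩ := exists_finset_reps (G := Lˣ) (R ×ˢ Finset.range p)
    (fun (i : K × ℕ) x => ∃ (q : ℤ) (u : K), u ∈ S.OK ∧ u⁻¹ ∈ S.OK ∧
      Algebra.norm K (x : L) = i.1 * S.π ^ i.2 * A ^ q * u)
  refine ⟨F, fun x => ?_⟩
  have hx0 : Algebra.norm K (x : L) ≠ 0 := by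
    rw [Ne, Algebra.norm_eq_zero_iff]
    exact x.ne_zero
  obtain ⟨r, hr, k, u, e, hu, hu'⟩ := hR _ hx0
  have hj : ((k % (p : ℤ)).toNat : ℤ) = k % p := Int.toNat_of_nonneg (Int.emod_nonneg k hpz.ne')
  have hjlt : (k % (p : ℤ)).toNat < p := by
    have := Int.emod_lt_of_pos k hpz
    omega
  have hQ : ∃ (q : ℤ) (u : K), u ∈ S.OK ∧ u⁻¹ ∈ S.OK ∧
      Algebra.norm K (x : L) = r * S.π ^ (k % (p : ℤ)).toNat * A ^ q * u := by
    refine ⟨k / p, u, hu, ?_, ?_⟩
    · rw [S.mem_OK, map_inv₀]; exact hu'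
    · have e1 : S.π ^ k = S.π ^ (k % (p : ℤ)).toNat * A ^ (k / (p : ℤ)) := by
        rw [hA, ← zpow_natCast S.π p, ← zpow_mul, ← zpow_natCast S.π (k % (p : ℤ)).toNat, hj,
          ← zpow_add₀ hπ, Int.emod_add_mul_ediv]
      rw [e, e1]
      ring
  obtain ⟨y, hy, q', u', hu'1, hu'2, ey⟩ :=
    hF (r, (k % (p : ℤ)).toNat) (by rw [Finset.mem_product]; exact ⟨hr, Finset.mem_range.mpr hjlt⟩)
      x hQ
  obtain ⟨q, u, hu1, hu2, ex⟩ := hQ
  simp only at ey
  have hr0 : r ≠ 0 := by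
    rintro rfl
    apply hx0
    rw [ex]
    simp
  have hu0 : u ≠ 0 := by
    rintro rfl
    apply hx0
    rw [ex]
    simp
  have hu'0 : u' ≠ 0 := by
    rintro rfl
    have : Algebra.norm K (y : L) ≠ 0 := by
      rw [Ne, Algebra.norm_eq_zero_iff]
      exact y.ne_zero
    apply this
    rw [ey]
    simp
  set z : Lˣ := y⁻¹ * x * S.πu ^ (-(q - q')) with hz
  have hnz : Algebra.norm K (z : L) = u * u'⁻¹ := by
    rw [hz, Units.val_mul, Units.val_mul, map_mul, map_mul, S.norm_πu_zpow,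
      Units.val_inv_eq_inv_val, Algebra.norm_inv, ex, ey, ← hp, ← hA, neg_sub, zpow_sub₀ hA0]
    have h1 : A ^ q ≠ 0 := zpow_ne_zero _ hA0
    have h2 : A ^ q' ≠ 0 := zpow_ne_zero _ hA0
    have h3 : S.π ^ (k % (p : ℤ)).toNat ≠ 0 := pow_ne_zero _ hπ
    generalize A ^ q = a1 at h1 ⊢
    generalize A ^ q' = a2 at h2 ⊢
    generalize S.π ^ (k % (p : ℤ)).toNat = a3 at h3 ⊢
    field_simp
  refine ⟨y, hy, q - q', z, ?_, ?_, ?_⟩
  · rw [S.mem_O_iff_norm_mem, hnz]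
    exact mul_mem hu1 hu'2
  · rw [S.mem_O_iff_norm_mem, Units.val_inv_eq_inv_val, Algebra.norm_inv, hnz, mul_inv, inv_inv]
    exact mul_mem hu2 hu'1
  · rw [hz, mul_assoc (y⁻¹ * x), ← zpow_add, neg_add_cancel, zpow_zero, mul_one]

end NIBase

namespace NILattice

variable {S : NIBase K L} (Λ : NILattice S)

/-- `V m · π^ℤ` has finite index in `Lˣ`. -/
theorem index_ne_zero (m : ℕ) : (Λ.V m ⊔ Subgroup.zpowers S.πu).index ≠ 0 := by
  obtain ⟨F₁, hF₁⟩ := S.exists_reps_norm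
  obtain ⟨F₂, hF₂⟩ := Λ.exists_reps_units m
  refine index_ne_zero_of_reps _ (Finset.image₂ (fun y u => y * u) F₁ F₂) fun x => ?_
  obtain ⟨y, hy, q, w, hw, hw', e⟩ := hF₁ x
  obtain ⟨u, hu, huw⟩ := hF₂ w hw hw'
  refine ⟨y * u, Finset.mem_image₂_of_mem hy hu, ?_⟩
  have e2 : (y * u)⁻¹ * x = (u⁻¹ * w) * S.πu ^ q := by
    rw [mul_inv_rev, mul_assoc, e, mul_assoc]
  rw [e2]
  exact Subgroup.mul_mem_sup huw (Subgroup.zpow_mem_zpowers _ _)

end NILattice

end Fermat.Agent.F4Loc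
end MergeWrap_F4_Loc_NormIdx_Fin

section MergeWrap_F4_Loc_NormIdx_Main -- from F4/Loc/NormIdx/Main.lean

/-!
# F4/Loc/NormIdx: the local norm index theorem (helper91)

`NISetup.norm_index`: for a Galois extension `L/K` of prime degree `p` with an `NIBase`
(Galois-stable valuation ring, pseudo-uniformizer, rank one, discrete, finite residue ring,
Hensel), the norm group `N(Lˣ)` has index `p` in `Kˣ`.

`NISetup.exists_norm_of_close_to_one`: the norm group is open (any Galois degree).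
-/

set_option autoImplicit false
set_option linter.unusedSectionVars false

open Finset
open scoped Classical

namespace Fermat.Agent.F4Loc

section defs

variable (K L : Type*) [Field K] [Field L] [Algebra K L]

/-- `Kˣ → Lˣ`. -/
noncomputable def unitsIncl : Kˣ →* Lˣ := Units.map (algebraMap K L : K →* L)

/-- the norm `Lˣ → Kˣ`. -/
noncomputable def unitsNorm : Lˣ →* Kˣ := Units.map (Algebra.norm K : L →* K)

/-- the norm as an endomorphism of `Lˣ`. -/
noncomputable def normEndo : Lˣ →* Lˣ := (unitsIncl K L).comp (unitsNorm K L)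

variable {K L}

/-- `x ↦ σ x / x`. -/
noncomputable def twistEndo (σ : L ≃ₐ[K] L) : Lˣ →* Lˣ where
  toFun x := Units.map (σ : L →* L) x / x
  map_one' := by simp
  map_mul' x y := by
    rw [map_mul]
    exact mul_div_mul_comm _ _ _ _

@[simp] theorem coe_unitsIncl (a : Kˣ) : ((unitsIncl K L a : Lˣ) : L) = algebraMap K L a := rfl

@[simp] theorem coe_unitsNorm (x : Lˣ) : ((unitsNorm K L x : Kˣ) : K) = Algebra.norm K (x : L) :=
  rfl

@[simp] theorem coe_normEndo (x : Lˣ) :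
    ((normEndo K L x : Lˣ) : L) = algebraMap K L (Algebra.norm K (x : L)) := rfl

@[simp] theorem coe_twistEndo (σ : L ≃ₐ[K] L) (x : Lˣ) :
    ((twistEndo σ x : Lˣ) : L) = σ (x : L) / (x : L) := by
  show ((Units.map (σ : L →* L) x / x : Lˣ) : L) = _
  rw [Units.val_div_eq_div_val]
  rfl

theorem unitsIncl_injective : Function.Injective (unitsIncl K L) :=
  Units.map_injective (algebraMap K L).injective

theorem twistEndo_normEndo (σ : L ≃ₐ[K] L) (x : Lˣ) : twistEndo σ (normEndo K L x) = 1 := by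
  ext
  rw [coe_twistEndo, coe_normEndo, AlgEquiv.commutes, Units.val_one]
  exact div_self (normEndo K L x).ne_zero

theorem normEndo_twistEndo (σ : L ≃ₐ[K] L) (x : Lˣ) :
    normEndo K L (twistEndo σ x) = 1 := by
  have h : normEndo K L (Units.map (σ : L →* L) x) = normEndo K L x := by
    ext
    rw [coe_normEndo, coe_normEndo]
    congr 1
    exact Algebra.norm_eq_of_algEquiv σ (x : L)
  show normEndo K L (Units.map (σ : L →* L) x / x) = 1
  rw [map_div, h, div_self']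

theorem mem_ker_twistEndo {σ : L ≃ₐ[K] L} {x : Lˣ} :
    x ∈ (twistEndo σ).ker ↔ σ (x : L) = (x : L) := by
  rw [MonoidHom.mem_ker, Units.ext_iff, coe_twistEndo, Units.val_one,
    div_eq_one_iff_eq x.ne_zero]

end defs

section open_

variable {K L : Type*} [Field K] [Field L] [Algebra K L] [FiniteDimensional K L] [IsGalois K L]

/-- **Openness of the norm group** (any finite Galois extension in an `NIBase`): every element
of `1 + π ^ n O_K` is a norm, for some `n`. -/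
theorem NISetup.exists_norm_of_close_to_one (S : NISetup K L) :
    ∃ n : ℕ, ∀ a : K, a - 1 ∈ S.I n → ∃ y : L, Algebra.norm K y = a := by
  obtain ⟨Λ⟩ := S.toNIBase.exists_lattice
  obtain ⟨m, hm⟩ := S.exists_pow_mul_mem Λ.t₀⁻¹
  rw [← div_eq_mul_inv] at hm
  refine ⟨(m + 1) + m, fun a ha => ?_⟩
  have hP : Λ.P (m + 1) (algebraMap K L a) := by
    rw [Λ.P_algebraMap]
    obtain ⟨a', ha', e⟩ := S.mem_I_iff_exists.mp ha
    have e2 : (a - 1) / Λ.t₀ = S.π ^ (m + 1) * (S.π ^ m / Λ.t₀ * a') := by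
      rw [e, pow_add]
      have := Λ.t₀_ne_zero
      field_simp
    rw [e2]
    exact S.pow_mul_mem_I (mul_mem hm ha')
  obtain ⟨y, -, hy⟩ := Λ.exists_norm_eq S.hens m hm a hP
  exact ⟨y, hy⟩

end open_

variable {K L : Type} [Field K] [Field L] [Algebra K L] [FiniteDimensional K L] [IsGalois K L]

theorem fixed_of_gen {σ : L ≃ₐ[K] L} (hσ : ∀ g, g ∈ Subgroup.zpowers σ) {x : L}
    (hx : σ x = x) (g : L ≃ₐ[K] L) : g x = x := by
  obtain ⟨k, rfl⟩ := NILattice.exists_pow_eq_of_gen σ hσ g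
  induction k with
  | zero => rfl
  | succ k ih => rw [pow_succ, AlgEquiv.mul_apply, hx, ih]

theorem ker_twistEndo {σ : L ≃ₐ[K] L} (hσ : ∀ g, g ∈ Subgroup.zpowers σ) :
    (twistEndo σ).ker = (⊤ : Subgroup Kˣ).map (unitsIncl K L) := by
  ext x
  rw [mem_ker_twistEndo, Subgroup.mem_map]
  constructor
  · intro hx
    obtain ⟨a, ha⟩ := (IsGalois.mem_range_algebraMap_iff_fixed (F := K) (x : L)).mpr
      (fun g => fixed_of_gen hσ hx g)
    have ha0 : a ≠ 0 := by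
      rintro rfl
      rw [map_zero] at ha
      exact x.ne_zero ha.symm
    exact ⟨Units.mk0 a ha0, Subgroup.mem_top _, Units.ext ha⟩
  · rintro ⟨a, -, rfl⟩
    rw [coe_unitsIncl, AlgEquiv.commutes]

theorem mhq_twist_norm_top {σ : L ≃ₐ[K] L} (hσ : ∀ g, g ∈ Subgroup.zpowers σ) :
    mhq (twistEndo σ) (normEndo K L) ⊤ = (unitsNorm K L).range.index := by
  rw [mhq_top, ker_twistEndo hσ, normEndo, MonoidHom.range_comp,
    Subgroup.relIndex_map_map_of_injective _ _ unitsIncl_injective, Subgroup.relIndex_top_right]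

/-- Hilbert 90. -/
theorem mhq_norm_twist_top {σ : L ≃ₐ[K] L} (hσ : ∀ g, g ∈ Subgroup.zpowers σ) :
    mhq (normEndo K L) (twistEndo σ) ⊤ = 1 := by
  rw [mhq_top, Subgroup.relIndex_eq_one]
  intro x hx
  have : IsCyclic (L ≃ₐ[K] L) := ⟨⟨σ, hσ⟩⟩
  have hN : Algebra.norm K (x : L) = 1 := by
    have := congrArg Units.val (MonoidHom.mem_ker.mp hx)
    rw [coe_normEndo, Units.val_one] at this
    exact (algebraMap K L).injective (by rw [this, map_one])
  have hNinv : Algebra.norm K ((x : L)⁻¹) = 1 := by rw [Algebra.norm_inv, hN, inv_one]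
  obtain ⟨y, hy⟩ := groupCohomology.exists_div_of_norm_eq_one (K := K) hσ hNinv
  refine ⟨y, ?_⟩
  ext
  rw [coe_twistEndo]
  have hy0 : (y : L) ≠ 0 := y.ne_zero
  have hσy0 : σ (y : L) ≠ 0 := by rw [Ne, map_eq_zero]; exact hy0
  have h1 : (y : L) / σ (y : L) = (x : L)⁻¹ := hy
  have hx0 : (x : L) ≠ 0 := x.ne_zero
  field_simp at h1
  field_simp
  exact h1.symm

namespace NILattice

variable {S : NIBase K L} (Λ : NILattice S)

/-- `B = V m · π^ℤ`. -/
noncomputable def B (m : ℕ) : Subgroup Lˣ := Λ.V m ⊔ Subgroup.zpowers S.πu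

theorem mem_B {m : ℕ} {x : Lˣ} : x ∈ Λ.B m ↔ ∃ v ∈ Λ.V m, ∃ k : ℤ, x = v * S.πu ^ k := by
  rw [B, Subgroup.mem_sup]
  constructor
  · rintro ⟨v, hv, w, hw, rfl⟩
    obtain ⟨k, rfl⟩ := Subgroup.mem_zpowers_iff.mp hw
    exact ⟨v, hv, k, rfl⟩
  · rintro ⟨v, hv, k, rfl⟩
    exact ⟨v, hv, _, Subgroup.zpow_mem_zpowers _ _, rfl⟩

theorem twistEndo_πu (σ : L ≃ₐ[K] L) : twistEndo σ S.πu = 1 := by
  ext
  rw [coe_twistEndo, NIBase.coe_πu, AlgEquiv.commutes, Units.val_one]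
  exact div_self S.πL_ne_zero

theorem twistEndo_mem_V {m : ℕ} (σ : L ≃ₐ[K] L) {v : Lˣ} (hv : v ∈ Λ.V m) :
    twistEndo σ v ∈ Λ.V m := by
  rw [mem_V, coe_twistEndo, div_eq_mul_inv]
  exact Λ.P_mul (Λ.P_gal σ hv) (Λ.P_inv (Nat.le_add_left 1 m) hv)

theorem normEndo_mem_V {m : ℕ} {v : Lˣ} (hv : v ∈ Λ.V m) : normEndo K L v ∈ Λ.V m := by
  rw [mem_V, coe_normEndo]
  exact Λ.P_norm hv

theorem map_twist_B_le (m : ℕ) (σ : L ≃ₐ[K] L) : (Λ.B m).map (twistEndo σ) ≤ Λ.B m := by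
  rintro _ ⟨x, hx, rfl⟩
  obtain ⟨v, hv, k, rfl⟩ := Λ.mem_B.mp hx
  rw [map_mul, map_zpow, twistEndo_πu, one_zpow, mul_one]
  exact Subgroup.mem_sup_left (Λ.twistEndo_mem_V σ hv)

theorem map_norm_B_le (m : ℕ) : (Λ.B m).map (normEndo K L) ≤ Λ.B m := by
  rintro _ ⟨x, hx, rfl⟩
  obtain ⟨v, hv, k, rfl⟩ := Λ.mem_B.mp hx
  rw [map_mul, map_zpow]
  refine Subgroup.mul_mem _ (Subgroup.mem_sup_left (Λ.normEndo_mem_V hv)) ?_
  refine Subgroup.zpow_mem _ (Subgroup.mem_sup_right ?_) k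
  have : normEndo K L S.πu = S.πu ^ Module.finrank K L := by
    ext
    rw [coe_normEndo, NIBase.coe_πu, Algebra.norm_algebraMap, map_pow, Units.val_pow_eq_pow_val,
      NIBase.coe_πu]
  rw [this]
  exact Subgroup.pow_mem _ (Subgroup.mem_zpowers _) _

/-- the norm of an element of `V m` is a unit of `O_K`. -/
theorem norm_V_unit {m : ℕ} {v : Lˣ} (hv : v ∈ Λ.V m) :
    Algebra.norm K (v : L) ∈ S.OK ∧ (Algebra.norm K (v : L))⁻¹ ∈ S.OK := by
  have h1 : Λ.P (m + 1) (algebraMap K L (Algebra.norm K (v : L))) := Λ.P_norm hv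
  have h2 := Λ.mem_I_of_P_algebraMap h1
  have h3 := S.I_anti (Nat.le_add_left 1 m) h2
  have e : 1 + (Algebra.norm K (v : L) - 1) = Algebra.norm K (v : L) := by ring
  constructor
  · rw [← e]
    exact add_mem (one_mem _) (S.I_le_OK h3)
  · have := S.inv_one_add_mem h3
    rwa [e] at this

/-- if `N(v) π^(p k)` is a unit then `k = 0`. -/
theorem eq_zero_of_norm_mul_zpow {m : ℕ} {v : Lˣ} (hv : v ∈ Λ.V m) {j : ℤ} {c : K}
    (hc : c ∈ S.OK) (hc' : c⁻¹ ∈ S.OK) (h : Algebra.norm K (v : L) * S.π ^ j = c) : j = 0 := by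
  obtain ⟨h1, h2⟩ := Λ.norm_V_unit hv
  have hN0 : Algebra.norm K (v : L) ≠ 0 := by
    rw [Ne, Algebra.norm_eq_zero_iff]; exact v.ne_zero
  have e : S.π ^ j = c * (Algebra.norm K (v : L))⁻¹ := by
    rw [← h]; field_simp
  apply S.zpow_eq_zero_of_unit
  · rw [e]; exact mul_mem hc h2
  · rw [e, mul_inv, inv_inv]; exact mul_mem hc' h1

theorem mhq_norm_twist_B {σ : L ≃ₐ[K] L} (hσ : ∀ g, g ∈ Subgroup.zpowers σ) (m : ℕ) :
    mhq (normEndo K L) (twistEndo σ) (Λ.B m) = 1 := by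
  rw [mhq_def, Subgroup.relIndex_eq_one]
  rintro x ⟨hxB, hxN⟩
  obtain ⟨v, hv, k, rfl⟩ := Λ.mem_B.mp hxB
  have hN : Algebra.norm K ((v * S.πu ^ k : Lˣ) : L) = 1 := by
    have := congrArg Units.val (MonoidHom.mem_ker.mp hxN)
    rw [coe_normEndo, Units.val_one] at this
    exact (algebraMap K L).injective (by rw [this, map_one])
  rw [Units.val_mul, map_mul, S.norm_πu_zpow, ← zpow_natCast, ← zpow_mul] at hN
  have hk0 := Λ.eq_zero_of_norm_mul_zpow hv (one_mem _) (by rw [inv_one]; exact one_mem _) hN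
  have hp0 : (Module.finrank K L : ℤ) ≠ 0 := by
    exact_mod_cast (Module.finrank_pos (R := K) (M := L)).ne'
  have hk : k = 0 := by
    rcases mul_eq_zero.mp hk0 with h | h
    · exact absurd h hp0
    · exact h
  subst hk
  rw [mul_zero, zpow_zero, mul_one] at hN
  rw [zpow_zero, mul_one]
  obtain ⟨c, hc, hσc⟩ := Λ.exists_twist_eq σ hσ m (v : L) hv hN
  have hc0 : c ≠ 0 := Λ.ne_zero_of_P (Nat.le_add_left 1 m) hc
  refine ⟨Units.mk0 c hc0, Subgroup.mem_sup_left hc, ?_⟩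
  ext
  rw [coe_twistEndo, Units.val_mk0, hσc]
  field_simp

theorem mhq_twist_norm_B {σ : L ≃ₐ[K] L} (hσ : ∀ g, g ∈ Subgroup.zpowers σ)
    (hens : ∀ (d : ℕ) (c : ℕ → K), (∀ i, algebraMap K L (c i) ∈ S.O) → c 1 = 1 →
      (∀ i, 2 ≤ i → algebraMap K L (c i / S.π) ∈ S.O) →
      ∃ x : K, algebraMap K L x ∈ S.O ∧ ∑ i ∈ Finset.range (d + 2), c i * x ^ i = 0)
    (hp : (Module.finrank K L).Prime) (m : ℕ) (hm : S.π ^ m / Λ.t₀ ∈ S.OK) :
    mhq (twistEndo σ) (normEndo K L) (Λ.B m) = Module.finrank K L := by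
  rw [mhq_def]
  refine relIndex_eq_prime hp S.πu ⟨Subgroup.mem_sup_right (Subgroup.mem_zpowers _), ?_⟩ ?_ ?_ ?_
  · exact MonoidHom.mem_ker.mpr (twistEndo_πu σ)
  · -- `π` is not a norm from `B`
    rintro ⟨x, hx, hxπ⟩
    obtain ⟨v, hv, k, rfl⟩ := Λ.mem_B.mp hx
    have h1 := congrArg Units.val hxπ
    rw [coe_normEndo, Units.val_mul, map_mul, S.norm_πu_zpow, NIBase.coe_πu, ← zpow_natCast,
      ← zpow_mul] at h1
    have h2 : Algebra.norm K (v : L) * S.π ^ ((Module.finrank K L : ℤ) * k) = S.π :=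
      (algebraMap K L).injective h1
    have h3 : Algebra.norm K (v : L) * S.π ^ ((Module.finrank K L : ℤ) * k - 1) = 1 := by
      rw [zpow_sub₀ S.π_ne_zero, zpow_one, ← mul_div_assoc, h2]
      exact div_self S.π_ne_zero
    have h4 := Λ.eq_zero_of_norm_mul_zpow hv (one_mem _) (by rw [inv_one]; exact one_mem _) h3
    have h5 : (Module.finrank K L : ℤ) * k = 1 := by linarith
    have h6 := Int.eq_one_or_neg_one_of_mul_eq_one h5
    have h7 : 2 ≤ Module.finrank K L := hp.two_le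
    omega
  · refine ⟨S.πu, Subgroup.mem_sup_right (Subgroup.mem_zpowers _), ?_⟩
    ext
    rw [coe_normEndo, NIBase.coe_πu, Algebra.norm_algebraMap, map_pow, Units.val_pow_eq_pow_val,
      NIBase.coe_πu]
  · rintro x ⟨hxB, hxf⟩
    obtain ⟨v, hv, k, rfl⟩ := Λ.mem_B.mp hxB
    have hvf : v ∈ (twistEndo σ).ker := by
      have hxf' : twistEndo σ (v * S.πu ^ k) = 1 := MonoidHom.mem_ker.mp hxf
      rw [map_mul, map_zpow, twistEndo_πu, one_zpow, mul_one] at hxf'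
      exact MonoidHom.mem_ker.mpr hxf'
    rw [ker_twistEndo hσ] at hvf
    obtain ⟨a, -, ha⟩ := hvf
    have hPa : Λ.P (m + 1) (algebraMap K L (a : K)) := by
      have : (v : L) = algebraMap K L (a : K) := by rw [← ha]; rfl
      rw [← this]
      exact hv
    obtain ⟨y, hy, hya⟩ := Λ.exists_norm_eq hens m hm (a : K) hPa
    have hy0 : y ≠ 0 := Λ.ne_zero_of_P (Nat.le_add_left 1 m) hy
    refine Subgroup.mul_mem_sup ?_ (Subgroup.zpow_mem_zpowers _ _)
    refine ⟨Units.mk0 y hy0, Subgroup.mem_sup_left hy, ?_⟩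
    rw [← ha]
    ext
    rw [coe_normEndo, Units.val_mk0, hya]
    rfl

end NILattice

/-- **Local norm index theorem** (abstract form): for a Galois extension `L/K` of prime degree
in an `NIBase`, the norm group has index `[L : K]`. -/
theorem NISetup.norm_index (S : NISetup K L) (hp : (Module.finrank K L).Prime) :
    (unitsNorm K L).range.index = Module.finrank K L := by
  obtain ⟨Λ⟩ := S.toNIBase.exists_lattice
  have : Fact (Module.finrank K L).Prime := ⟨hp⟩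
  have hcard : Nat.card (L ≃ₐ[K] L) = Module.finrank K L := IsGalois.card_aut_eq_finrank K L
  have hcyc : IsCyclic (L ≃ₐ[K] L) := isCyclic_of_prime_card hcard
  obtain ⟨σ, hσ⟩ := hcyc.exists_generator
  obtain ⟨m, hm⟩ := S.exists_pow_mul_mem Λ.t₀⁻¹
  rw [← div_eq_mul_inv] at hm
  have key := mhq_top_mul_mhq (twistEndo σ) (normEndo K L) (twistEndo_normEndo σ)
    (normEndo_twistEndo σ) (Λ.map_twist_B_le m σ) (Λ.map_norm_B_le m) (Λ.index_ne_zero m)
  rw [mhq_twist_norm_top hσ, Λ.mhq_norm_twist_B hσ m, Λ.mhq_twist_norm_B hσ S.hens hp m hm,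
    mhq_norm_twist_top hσ, mul_one, mul_one] at key
  exact key

end Fermat.Agent.F4Loc
end MergeWrap_F4_Loc_NormIdx_Main
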